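import Mathlib
import Fermat.Prelude.Def_FLTPrelim_Ramification
import Fermat.Agent.Lib.FrobeniusExistsAt
import Fermat.Agent.Lib.CFT.S14.Bridge

/-!
# P-S56 block (A), bridge file (helper15): finite-level local pairs of a place of `ℚ̄`

The Prelude states all local conditions through a valuation subring `P` of an algebraic
Galois extension `L` of `ℚ` (in practice `L = AlgebraicClosure ℚ`) lying over a prime `p`, and
its decomposition / inertia subgroups inside `Gal(L/ℚ)`.  Ramification theory wants finite
groups acting on discrete valuation rings.  This file provides the dictionary, for every finite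
Galois subextension `E` of `L`:

* `below P E`: the valuation subring of `E` below `P`; it is a discrete valuation ring
  (`isDiscreteValuationRing_below`), namely the localisation of the ring of integers of `E`
  at the prime cut out by `P` (`isLocalization_below`);
* `restrictNormalHom E` maps `P.decompositionSubgroup ℚ` ONTO `(below P E).decompositionSubgroup ℚ`
  (`map_decompositionSubgroup`, `exists_mem_decompositionSubgroup_restrict`), using the conjugacy
  under `Gal(L/E)` of the places of `L` above a given place of `E`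
  (`exists_algEquiv_over_forall_mem_iff`);
* `mem_inertiaSubgroupIn_iff`: elementwise description of `A.inertiaSubgroupIn K`;
  `restrictNormalHom_mem_inertiaSubgroupIn`: restriction maps inertia into inertia.
-/

set_option autoImplicit false
set_option linter.style.haveILetI false
set_option linter.unusedSectionVars false

open scoped Pointwise

namespace Fermat.Agent.S56x.Hens

open Fermat.Agent.Lib Fermat.Agent.Lib.CFT.S14.Bridge NumberField

section Below

variable {L : Type*} [Field L] [Algebra ℚ L]

/-- The valuation subring of the subfield `E` lying below the valuation subring `P` of `L`. -/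
def below (P : ValuationSubring L) (E : IntermediateField ℚ L) : ValuationSubring E :=
  P.comap (algebraMap E L)

variable (P : ValuationSubring L) (E : IntermediateField ℚ L)

theorem mem_below {x : E} : x ∈ below P E ↔ (x : L) ∈ P := Iff.rfl

theorem valuation_below_le_one_iff {x : E} :
    (below P E).valuation x ≤ 1 ↔ P.valuation (x : L) ≤ 1 := by
  rw [ValuationSubring.valuation_le_one_iff, ValuationSubring.valuation_le_one_iff, mem_below]

theorem mem_below_nonunits {x : E} : x ∈ (below P E).nonunits ↔ (x : L) ∈ P.nonunits := by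
  by_cases hx : x = 0
  · subst hx
    simp only [ZeroMemClass.coe_zero]
    exact ⟨fun _ => P.nonunits.zero_mem, fun _ => (below P E).nonunits.zero_mem⟩
  · have hx' : (x : L) ≠ 0 := fun h => hx (Subtype.ext h)
    rw [ValuationSubring.mem_nonunits_iff, ValuationSubring.mem_nonunits_iff]
    -- `v x < 1 ↔ ¬ (v x⁻¹ ≤ 1)`
    have h1 : (below P E).valuation x < 1 ↔ ¬ (below P E).valuation x⁻¹ ≤ 1 := by
      rw [map_inv₀, not_le, one_lt_inv₀ (zero_lt_iff.mpr ((map_ne_zero _).mpr hx))]
    have h2 : P.valuation (x : L) < 1 ↔ ¬ P.valuation ((x : L))⁻¹ ≤ 1 := by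
      rw [map_inv₀, not_le, one_lt_inv₀ (zero_lt_iff.mpr ((map_ne_zero _).mpr hx'))]
    rw [h1, h2, valuation_below_le_one_iff]
    simp

theorem below_liesOverPrime {p : ℕ} (hP : P.LiesOverPrime p) : (below P E).LiesOverPrime p := by
  show ((p : ℕ) : E) ∈ (below P E).nonunits
  rw [mem_below_nonunits]
  have h : (((p : ℕ) : E) : L) = ((p : ℕ) : L) := by simp
  rw [h]
  exact hP

end Below

/-! ### `below P E` is a discrete valuation ring -/

section DVR

variable {L : Type*} [Field L] [Algebra ℚ L]
variable (P : ValuationSubring L) (E : IntermediateField ℚ L)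

/-- The inclusion of the algebraic integers of `E` into `below P E`. -/
noncomputable def integersToBelow : integralClosure ℤ E →+* below P E where
  toFun x := ⟨x, mem_valuationSubring_of_isIntegral (below P E) x.2⟩
  map_one' := rfl
  map_mul' _ _ := rfl
  map_zero' := rfl
  map_add' _ _ := rfl

@[simp] theorem coe_integersToBelow (x : integralClosure ℤ E) :
    ((integersToBelow P E x : below P E) : E) = (x : E) := rfl

theorem integersToBelow_injective : Function.Injective (integersToBelow P E) := by
  intro x y h
  exact Subtype.ext (congrArg (fun z : below P E => (z : E)) h)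

/-- `below P E` is the localisation of the ring of algebraic integers of `E` at the prime cut
out by `P`. -/
theorem isLocalization_below [Algebra.IsAlgebraic ℚ E] {p : ℕ} (hp : p.Prime)
    (hP : P.LiesOverPrime p) :
    letI := (integersToBelow P E).toAlgebra
    haveI := primeOfValuationSubring_isPrime (below P E)
    IsLocalization.AtPrime (below P E) (primeOfValuationSubring (below P E)) := by
  letI := (integersToBelow P E).toAlgebra
  haveI := primeOfValuationSubring_isPrime (below P E)
  have : CharZero E := algebraRat.charZero E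
  have hPE := below_liesOverPrime P E hP
  rw [IsLocalization.AtPrime, isLocalization_iff]
  refine ⟨?_, ?_, ?_⟩
  · rintro ⟨y, hy⟩
    have hy' : (y : E) ∉ (below P E).nonunits := hy
    change IsUnit (integersToBelow P E y)
    have h1 : integersToBelow P E y ∉ IsLocalRing.maximalIdeal (below P E) := by
      rw [← ValuationSubring.coe_mem_nonunits_iff]
      exact hy'
    exact IsLocalRing.notMem_maximalIdeal.mp h1
  · intro z
    have hzalg : IsAlgebraic ℤ (z : E) :=
      (IsFractionRing.isAlgebraic_iff ℤ ℚ E).mpr (Algebra.IsAlgebraic.isAlgebraic (z : E))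
    obtain ⟨s, hs, hsn, hsz⟩ := exists_integral_mul (below P E) hp hPE z.2 hzalg
    refine ⟨⟨⟨s * z, hsz⟩, ⟨⟨s, hs⟩, hsn⟩⟩, ?_⟩
    apply Subtype.ext
    change (z : E) * s = s * z
    exact mul_comm _ _
  · intro x y hxy
    exact ⟨1, by rw [integersToBelow_injective P E hxy]⟩

/-- The valuation subring of a number field `E` below a place of `L` over `p` is a discrete
valuation ring. -/
theorem isDiscreteValuationRing_below [FiniteDimensional ℚ E] {p : ℕ} (hp : p.Prime)
    (hP : P.LiesOverPrime p) : IsDiscreteValuationRing (below P E) := by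
  letI := (integersToBelow P E).toAlgebra
  haveI := primeOfValuationSubring_isPrime (below P E)
  have : CharZero E := algebraRat.charZero E
  have : NumberField E := by
    refine @NumberField.mk E _ inferInstance ?_
    convert (inferInstance : FiniteDimensional ℚ E)
    exact Subsingleton.elim _ _
  haveI : IsDedekindDomain (integralClosure ℤ E) := inferInstanceAs (IsDedekindDomain (𝓞 E))
  haveI := isLocalization_below P E hp hP
  have hne : primeOfValuationSubring (below P E) ≠ ⊥ := by
    intro h
    have h1 : ((p : ℕ) : integralClosure ℤ E) ∈ primeOfValuationSubring (below P E) := by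
      rw [mem_primeOfValuationSubring]
      have h2 : (((p : ℕ) : integralClosure ℤ E) : E) = ((p : ℕ) : E) := by simp
      rw [h2]
      exact below_liesOverPrime P E hP
    rw [h, Ideal.mem_bot] at h1
    exact hp.ne_zero (by exact_mod_cast h1)
  exact IsLocalization.AtPrime.isDiscreteValuationRing_of_dedekind_domain
    (integralClosure ℤ E) hne (below P E)

end DVR

/-! ### Conjugacy of places over a number field and surjectivity on decomposition groups -/

section Conj

variable {L : Type*} [Field L] [Algebra ℚ L]

theorem mem_nonunits_iff_inv_notMem {K : Type*} [Field K] (A : ValuationSubring K) {x : K}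
    (hx : x ≠ 0) : x ∈ A.nonunits ↔ x⁻¹ ∉ A := by
  rw [ValuationSubring.mem_nonunits_iff, ← ValuationSubring.valuation_le_one_iff, map_inv₀, not_le,
    one_lt_inv₀ (zero_lt_iff.mpr ((map_ne_zero _).mpr hx))]

theorem mem_smul_nonunits_iff {K : Type*} [Field K] {G : Type*} [Group G]
    [MulSemiringAction G K] (g : G) (A : ValuationSubring K) {x : K} :
    x ∈ (g • A).nonunits ↔ g⁻¹ • x ∈ A.nonunits := by
  by_cases hx : x = 0
  · subst hx
    rw [smul_zero]
    exact ⟨fun _ => A.nonunits.zero_mem, fun _ => (g • A).nonunits.zero_mem⟩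
  · have hx' : g⁻¹ • x ≠ 0 := by
      rw [Ne, smul_eq_zero_iff_eq]
      exact hx
    rw [mem_nonunits_iff_inv_notMem _ hx, mem_nonunits_iff_inv_notMem _ hx',
      ValuationSubring.mem_pointwise_smul_iff_inv_smul_mem, smul_inv'']

/-- A valuation subring `A` of an algebraic extension of `ℚ` over `l` is determined by the
algebraic integers that are non-units of `A`. -/
theorem mem_iff_exists_integral_mul [Algebra.IsAlgebraic ℚ L] (A : ValuationSubring L) {ℓ : ℕ}
    (hℓ : ℓ.Prime) (hA : A.LiesOverPrime ℓ) (x : L) :
    x ∈ A ↔ ∃ s : L, IsIntegral ℤ s ∧ s ∉ A.nonunits ∧ IsIntegral ℤ (s * x) := by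
  have : CharZero L := algebraRat.charZero L
  constructor
  · intro hx
    have hxalg : IsAlgebraic ℤ x :=
      (IsFractionRing.isAlgebraic_iff ℤ ℚ L).mpr (Algebra.IsAlgebraic.isAlgebraic x)
    exact exists_integral_mul A hℓ hA hx hxalg
  · rintro ⟨s, hs, hsn, hsx⟩
    have hsA : s ∈ A := mem_valuationSubring_of_isIntegral A hs
    have hsxA : s * x ∈ A := mem_valuationSubring_of_isIntegral A hsx
    have h1 : A.valuation s = 1 := by
      rw [ValuationSubring.mem_nonunits_iff, not_lt] at hsn
      exact le_antisymm ((A.valuation_le_one_iff _).mpr hsA) hsn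
    have h3 := (A.valuation_le_one_iff _).mpr hsxA
    rw [map_mul, h1, one_mul] at h3
    exact (A.valuation_le_one_iff _).mp h3

/-- Two places of `L` over `p` which cut out the same prime of the ring of integers of the
number field `E` are conjugate under `Gal(L/E)`. -/
theorem exists_algEquiv_over_forall_mem_iff [IsGalois ℚ L] (E : IntermediateField ℚ L)
    [NumberField E] {p : ℕ} (hp : p.Prime) (P₁ P₂ : ValuationSubring L)
    (h₁ : P₁.LiesOverPrime p) (h₂ : P₂.LiesOverPrime p)
    (h : ∀ x : E, IsIntegral ℤ x → ((x : L) ∈ P₁.nonunits ↔ (x : L) ∈ P₂.nonunits)) :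
    ∃ g : L ≃ₐ[E] L, ∀ x : L, x ∈ P₁ ↔ g x ∈ P₂ := by
  have hGalEL : IsGalois E L := IsGalois.tower_top_intermediateField E
  have hIntEL : Algebra.IsIntegral E L := inferInstance
  let _ := relAlgebra (L := L) E
  have := rel_smulComm (L := L) E
  have := rel_isInvariant (L := L) E
  let _ : TopologicalSpace (integralClosure ℤ L) := ⊥
  have : DiscreteTopology (integralClosure ℤ L) := ⟨rfl⟩
  have := rel_continuousSMul (L := L) E
  let PP : Ideal (integralClosure ℤ L) := primeOfValuationSubring P₁
  let QQ : Ideal (integralClosure ℤ L) := primeOfValuationSubring P₂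
  have hPPp : PP.IsPrime := primeOfValuationSubring_isPrime P₁
  have hQQp : QQ.IsPrime := primeOfValuationSubring_isPrime P₂
  have hunder : PP.under (𝓞 E) = QQ.under (𝓞 E) := by
    ext x
    rw [Ideal.under_def, Ideal.mem_comap, Ideal.under_def, Ideal.mem_comap]
    change toIntegers E x ∈ primeOfValuationSubring P₁ ↔ toIntegers E x ∈ primeOfValuationSubring P₂
    rw [mem_primeOfValuationSubring, mem_primeOfValuationSubring, coe_toIntegers]
    exact h (x : E) (RingOfIntegers.isIntegral_coe x)
  obtain ⟨g, hg⟩ := Algebra.IsInvariant.exists_smul_of_under_eq_of_profinite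
    (A := 𝓞 E) (B := integralClosure ℤ L) (G := L ≃ₐ[E] L) PP QQ hunder
  have hkey : ∀ s : L, IsIntegral ℤ s → (s ∈ P₁.nonunits ↔ g s ∈ P₂.nonunits) := by
    intro s hs
    have h1 : (⟨s, hs⟩ : integralClosure ℤ L) ∈ PP ↔
        g • (⟨s, hs⟩ : integralClosure ℤ L) ∈ g • PP :=
      (Ideal.smul_mem_pointwise_smul_iff).symm
    rw [← hg] at h1
    exact h1
  have hLalg : Algebra.IsAlgebraic ℚ L := inferInstance
  refine ⟨g, fun x => ?_⟩
  rw [mem_iff_exists_integral_mul P₁ hp h₁ x, mem_iff_exists_integral_mul P₂ hp h₂ (g x)]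
  constructor
  · rintro ⟨s, hs, hsn, hsx⟩
    refine ⟨g s, hs.map g, fun h => hsn ((hkey s hs).mpr h), ?_⟩
    rw [← map_mul]
    exact hsx.map g
  · rintro ⟨t, ht, htn, htx⟩
    have hs : IsIntegral ℤ (g.symm t) := ht.map g.symm
    refine ⟨g.symm t, hs, fun h => htn ?_, ?_⟩
    · have := (hkey _ hs).mp h
      rwa [AlgEquiv.apply_symm_apply] at this
    · have h2 : g.symm t * x = g.symm (t * g x) := by
        rw [map_mul, AlgEquiv.symm_apply_apply]
      rw [h2]
      exact htx.map g.symm

end Conj

section Decomp

variable {L : Type*} [Field L] [Algebra ℚ L] [IsGalois ℚ L]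
variable (P : ValuationSubring L) (E : IntermediateField ℚ L) [Normal ℚ E]

omit [IsGalois ℚ L] in
theorem coe_restrictNormalHom_apply (σ : L ≃ₐ[ℚ] L) (x : E) :
    ((AlgEquiv.restrictNormalHom E σ x : E) : L) = σ (x : L) :=
  AlgEquiv.restrictNormal_commutes σ E x

omit [IsGalois ℚ L] in
/-- The valuation subring below a conjugate place. -/
theorem below_smul (σ : L ≃ₐ[ℚ] L) :
    below (σ • P) E = (AlgEquiv.restrictNormalHom E σ) • below P E := by
  ext x
  rw [mem_below, ValuationSubring.mem_pointwise_smul_iff_inv_smul_mem,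
    ValuationSubring.mem_pointwise_smul_iff_inv_smul_mem, mem_below, ← map_inv]
  change σ⁻¹ (x : L) ∈ P ↔ ((AlgEquiv.restrictNormalHom E σ⁻¹ x : E) : L) ∈ P
  rw [coe_restrictNormalHom_apply]

/-- Restriction maps the decomposition group of `P` into the decomposition group of the place
below. -/
theorem restrictNormalHom_mem_decompositionSubgroup {σ : L ≃ₐ[ℚ] L}
    (hσ : σ ∈ P.decompositionSubgroup ℚ) :
    AlgEquiv.restrictNormalHom E σ ∈ (below P E).decompositionSubgroup ℚ := by
  rw [MulAction.mem_stabilizer_iff] at hσ ⊢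
  rw [← below_smul, hσ]

omit [IsGalois ℚ L] [Normal ℚ E] in
theorem smul_liesOverPrime (σ : L ≃ₐ[ℚ] L) {p : ℕ} (hP : P.LiesOverPrime p) :
    (σ • P).LiesOverPrime p := by
  show ((p : ℕ) : L) ∈ (σ • P).nonunits
  rw [mem_smul_nonunits_iff]
  have h : σ⁻¹ • ((p : ℕ) : L) = ((p : ℕ) : L) := by
    change σ⁻¹ ((p : ℕ) : L) = _
    exact map_natCast _ _
  rw [h]
  exact hP

/-- **Surjectivity.** Every element of the decomposition group of the place of `E` below `P`
is the restriction of an element of the decomposition group of `P`. -/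
theorem exists_mem_decompositionSubgroup_restrict [NumberField E] {p : ℕ} (hp : p.Prime)
    (hP : P.LiesOverPrime p) (τ : E ≃ₐ[ℚ] E)
    (hτ : τ ∈ (below P E).decompositionSubgroup ℚ) :
    ∃ σ ∈ P.decompositionSubgroup ℚ, AlgEquiv.restrictNormalHom E σ = τ := by
  obtain ⟨σ₀, hσ₀⟩ := AlgEquiv.restrictNormalHom_surjective L τ
  have hbelow : below (σ₀ • P) E = below P E := by
    rw [below_smul, hσ₀]
    exact MulAction.mem_stabilizer_iff.mp hτ
  obtain ⟨g, hg⟩ := exists_algEquiv_over_forall_mem_iff E hp (σ₀ • P) P
    (smul_liesOverPrime P σ₀ hP) hP (fun x _ => by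
      rw [← mem_below_nonunits, ← mem_below_nonunits, hbelow])
  have hres : AlgEquiv.restrictNormalHom E (g.restrictScalars ℚ) = 1 := by
    ext x
    rw [coe_restrictNormalHom_apply]
    exact g.commutes x
  refine ⟨g.restrictScalars ℚ * σ₀, ?_, ?_⟩
  · rw [MulAction.mem_stabilizer_iff]
    ext x
    rw [ValuationSubring.mem_pointwise_smul_iff_inv_smul_mem]
    -- `x ∈ P ↔ g⁻¹ x ∈ σ₀ • P`
    have h1 := hg (g.symm x)
    rw [AlgEquiv.apply_symm_apply, ValuationSubring.mem_pointwise_smul_iff_inv_smul_mem] at h1
    rw [← h1, mul_inv_rev, mul_smul]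
    rfl
  · rw [map_mul, hres, one_mul, hσ₀]

/-- The image of the decomposition group of `P` under restriction is the decomposition group
of the place below. -/
theorem map_decompositionSubgroup [NumberField E] {p : ℕ} (hp : p.Prime)
    (hP : P.LiesOverPrime p) :
    (P.decompositionSubgroup ℚ).map (AlgEquiv.restrictNormalHom E) =
      (below P E).decompositionSubgroup ℚ := by
  ext τ
  rw [Subgroup.mem_map]
  constructor
  · rintro ⟨σ, hσ, rfl⟩
    exact restrictNormalHom_mem_decompositionSubgroup P E hσ
  · intro hτ
    exact exists_mem_decompositionSubgroup_restrict P E hp hP τ hτ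

end Decomp

/-! ### Inertia -/

section Inertia

variable {L : Type*} [Field L] {K : Type*} [Field K] [Algebra K L]

/-- Membership in the inertia subgroup (as a subgroup of the full Galois group) spelled out. -/
theorem mem_inertiaSubgroupIn_iff (A : ValuationSubring L) (σ : L ≃ₐ[K] L) :
    σ ∈ A.inertiaSubgroupIn K ↔
      σ ∈ A.decompositionSubgroup K ∧ ∀ x ∈ A, σ x - x ∈ A.nonunits := by
  rw [ValuationSubring.inertiaSubgroupIn, Subgroup.mem_map]
  constructor
  · rintro ⟨⟨τ, hτ⟩, hmem, rfl⟩
    refine ⟨hτ, fun x hx => ?_⟩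
    rw [ValuationSubring.inertiaSubgroup, MonoidHom.mem_ker] at hmem
    have h1 := RingEquiv.congr_fun hmem (IsLocalRing.residue A ⟨x, hx⟩)
    rw [MulSemiringAction.toRingAut_apply, RingAut.one_apply] at h1
    change (⟨τ, hτ⟩ : A.decompositionSubgroup K) • (IsLocalRing.residue A ⟨x, hx⟩) = _ at h1
    rw [← IsLocalRing.ResidueField.residue_smul, ← sub_eq_zero, ← map_sub,
      IsLocalRing.residue_eq_zero_iff, ← ValuationSubring.coe_mem_nonunits_iff] at h1
    exact h1
  · rintro ⟨hτ, h⟩
    refine ⟨⟨σ, hτ⟩, ?_, rfl⟩
    rw [ValuationSubring.inertiaSubgroup, MonoidHom.mem_ker]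
    ext xbar
    rw [MulSemiringAction.toRingAut_apply, RingAut.one_apply]
    obtain ⟨x, rfl⟩ := IsLocalRing.residue_surjective xbar
    change (⟨σ, hτ⟩ : A.decompositionSubgroup K) • (IsLocalRing.residue A x) = _
    rw [← IsLocalRing.ResidueField.residue_smul, ← sub_eq_zero, ← map_sub,
      IsLocalRing.residue_eq_zero_iff, ← ValuationSubring.coe_mem_nonunits_iff]
    exact h x x.2

end Inertia

section InertiaRestrict

variable {L : Type*} [Field L] [Algebra ℚ L] [IsGalois ℚ L]
variable (P : ValuationSubring L) (E : IntermediateField ℚ L) [Normal ℚ E]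

/-- Restriction maps the inertia group of `P` into the inertia group of the place below. -/
theorem restrictNormalHom_mem_inertiaSubgroupIn {σ : L ≃ₐ[ℚ] L}
    (hσ : σ ∈ P.inertiaSubgroupIn ℚ) :
    AlgEquiv.restrictNormalHom E σ ∈ (below P E).inertiaSubgroupIn ℚ := by
  rw [mem_inertiaSubgroupIn_iff] at hσ ⊢
  refine ⟨restrictNormalHom_mem_decompositionSubgroup P E hσ.1, fun x hx => ?_⟩
  rw [mem_below_nonunits]
  have h1 := hσ.2 (x : L) hx
  rw [← coe_restrictNormalHom_apply] at h1
  exact h1

end InertiaRestrict

end Fermat.Agent.S56x.Hens
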