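import Mathlib

/-!
# P-S56, bridge file (helper15): tame inertia is cyclic

`B` a discrete valuation ring with residue characteristic `q`, `I` a finite group acting
faithfully on `B` by ring automorphisms and trivially on the residue field (an inertia group).

* `theta π hπ hres : I →* ResidueField B`, `σ ↦ σ(π)/π mod 𝔪` (the tame character);
* `isPGroup_ker_theta`: the kernel of `theta` (wild inertia) is a `q`-group — proved WITHOUT
  monogenicity, by an averaging argument;
* `isCyclic_quotient_ker_theta`: `I ⧸ ker theta` is cyclic;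
* `isCyclic_range_of_coprime`: the image of `I` under any homomorphism `f` whose image has order
  prime to `q` is cyclic, and `f` kills `ker theta` (`ker_theta_le_ker_of_coprime`);
* `theta_conj`: equivariance of `theta` under conjugation by a ring automorphism of `B`
  (for a Frobenius element this gives `φ τ φ⁻¹ ≡ τ ^ N` modulo wild inertia).
-/

set_option autoImplicit false
set_option linter.unusedSectionVars false

namespace Fermat.Agent.S56x.Hens.TameCyclic

open IsLocalRing

variable {B : Type*} [CommRing B] [IsDomain B] [IsDiscreteValuationRing B]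
variable {I : Type*} [Group I] [MulSemiringAction I B]

/-! ### The unit `σ(π)/π` -/

theorem irreducible_smul {π : B} (hπ : Irreducible π) (σ : I) : Irreducible (σ • π) :=
  (MulEquiv.irreducible_iff (MulSemiringAction.toRingEquiv I B σ)).mpr hπ

theorem exists_unit_smul {π : B} (hπ : Irreducible π) (σ : I) : ∃ u : Bˣ, π * u = σ • π :=
  IsDiscreteValuationRing.associated_of_irreducible B hπ (irreducible_smul hπ σ)

/-- The unit `σ(π)/π`. -/
noncomputable def unitOf {π : B} (hπ : Irreducible π) (σ : I) : Bˣ :=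
  (exists_unit_smul hπ σ).choose

theorem mul_unitOf {π : B} (hπ : Irreducible π) (σ : I) : π * (unitOf hπ σ : B) = σ • π :=
  (exists_unit_smul hπ σ).choose_spec

theorem unitOf_unique {π : B} (hπ : Irreducible π) (σ : I) {u : B} (hu : π * u = σ • π) :
    (unitOf hπ σ : B) = u :=
  mul_left_cancel₀ hπ.ne_zero ((mul_unitOf hπ σ).trans hu.symm)

theorem unitOf_mul {π : B} (hπ : Irreducible π) (σ τ : I) :
    (unitOf hπ (σ * τ) : B) = (unitOf hπ σ : B) * σ • (unitOf hπ τ : B) := by
  apply unitOf_unique
  rw [mul_smul, ← mul_unitOf hπ τ, smul_mul', ← mul_unitOf hπ σ, mul_assoc]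

theorem unitOf_one {π : B} (hπ : Irreducible π) : (unitOf hπ (1 : I) : B) = 1 := by
  apply unitOf_unique
  rw [one_smul, mul_one]

/-! ### The tame character -/

section Theta

variable {π : B} (hπ : Irreducible π)
  (hres : ∀ (σ : I) (b : B), σ • b - b ∈ maximalIdeal B)

include hres in
theorem residue_smul_eq (σ : I) (b : B) : residue B (σ • b) = residue B b := by
  rw [← sub_eq_zero, ← map_sub, residue_eq_zero_iff]
  exact hres σ b

/-- The tame character `σ ↦ σ(π)/π mod 𝔪`, with values in the units of the residue field. -/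
noncomputable def theta : I →* (ResidueField B)ˣ where
  toFun σ := Units.map (residue B).toMonoidHom (unitOf hπ σ)
  map_one' := by
    apply Units.ext
    change residue B (unitOf hπ (1 : I) : B) = 1
    rw [unitOf_one, map_one]
  map_mul' σ τ := by
    apply Units.ext
    change residue B (unitOf hπ (σ * τ) : B) =
      residue B (unitOf hπ σ : B) * residue B (unitOf hπ τ : B)
    rw [unitOf_mul, map_mul, residue_smul_eq hres]

theorem coe_theta_apply (σ : I) :
    ((theta hπ hres σ : (ResidueField B)ˣ) : ResidueField B) = residue B (unitOf hπ σ : B) := rfl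

include hπ in
theorem mem_ker_theta_iff (σ : I) :
    σ ∈ (theta hπ hres).ker ↔ π ∣ (unitOf hπ σ : B) - 1 := by
  rw [MonoidHom.mem_ker, Units.ext_iff, coe_theta_apply, Units.val_one, ← sub_eq_zero,
    ← map_one (residue B), ← map_sub, residue_eq_zero_iff, hπ.maximalIdeal_eq,
    Ideal.mem_span_singleton]

include hπ hres in
theorem dvd_smul_sub (σ : I) (b : B) : π ∣ σ • b - b := by
  have := hres σ b
  rwa [hπ.maximalIdeal_eq, Ideal.mem_span_singleton] at this

/-- **Key lemma.** An element of the kernel of `theta` acts trivially on `𝔪ⁿ/𝔪ⁿ⁺¹`. -/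
theorem pow_succ_dvd_smul_sub {τ : I} (hτ : τ ∈ (theta hπ hres).ker) (n : ℕ) (c : B) :
    π ^ (n + 1) ∣ τ • (π ^ n * c) - π ^ n * c := by
  rw [mem_ker_theta_iff hπ hres] at hτ
  obtain ⟨t, ht⟩ := hτ
  obtain ⟨s, hs⟩ := dvd_smul_sub hπ hres τ c
  obtain ⟨w, hw⟩ := sub_dvd_pow_sub_pow (unitOf hπ τ : B) 1 n
  rw [one_pow] at hw
  have h1 : τ • (π ^ n * c) = π ^ n * ((unitOf hπ τ : B) ^ n * τ • c) := by
    rw [smul_mul', smul_pow', ← mul_unitOf hπ τ, mul_pow, mul_assoc]
  refine ⟨t * w * τ • c + s, ?_⟩
  rw [h1]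
  have h2 : (unitOf hπ τ : B) ^ n - 1 = π * t * w := by
    rw [hw, ht]
  linear_combination (π ^ n * τ • c) * h2 + π ^ n * hs

end Theta

/-! ### Wild inertia is a `q`-group -/

section Wild

variable {π : B} (hπ : Irreducible π)
  (hres : ∀ (σ : I) (b : B), σ • b - b ∈ maximalIdeal B)

include hπ in
theorem not_dvd_natCast_of_coprime {q : ℕ} (hq : (q : B) ∈ maximalIdeal B) {m : ℕ}
    (hm : m.Coprime q) : ¬ π ∣ (m : B) := by
  intro h
  rw [hπ.maximalIdeal_eq, Ideal.mem_span_singleton] at hq
  have h1 : IsCoprime (m : ℤ) (q : ℤ) := Nat.isCoprime_iff_coprime.mpr hm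
  obtain ⟨a, b, hab⟩ := h1
  have h2 : (a : B) * (m : B) + (b : B) * (q : B) = 1 := by
    have := congrArg (Int.cast : ℤ → B) hab
    push_cast at this
    exact this
  have h3 : π ∣ (1 : B) := by
    rw [← h2]
    exact dvd_add (Dvd.dvd.mul_left h _) (Dvd.dvd.mul_left hq _)
  exact hπ.not_isUnit (isUnit_of_dvd_one h3)

/-- An element of the kernel of `theta` of order prime to the residue characteristic acts
trivially. -/
theorem smul_eq_of_mem_ker_of_pow_eq_one {q : ℕ} (hq : (q : B) ∈ maximalIdeal B)
    {σ : I} (hσ : σ ∈ (theta hπ hres).ker) {m : ℕ} (hm : m.Coprime q) (hσm : σ ^ m = 1)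
    (b : B) : σ • b = b := by
  have hpm : ¬ π ∣ (m : B) := not_dvd_natCast_of_coprime hπ hq hm
  have hprime : Prime π := hπ.prime
  -- all powers of `π` divide `σ • b - b`
  have key : ∀ n : ℕ, ∀ b : B, π ^ n ∣ σ • b - b := by
    intro n
    induction n with
    | zero => intro b; rw [pow_zero]; exact one_dvd _
    | succ n ih =>
      intro b
      obtain ⟨c, hc⟩ := ih b
      -- `σ^j • b - b ≡ j • d` modulo `π^(n+1)`, with `d = σ • b - b = π^n c`
      have hj : ∀ j : ℕ, π ^ (n + 1) ∣ (σ ^ j • b - b) - (j : B) * (π ^ n * c) := by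
        intro j
        induction j with
        | zero => simp
        | succ j ihj =>
          have hmem : σ ^ j ∈ (theta hπ hres).ker := Subgroup.pow_mem _ hσ j
          have h1 := pow_succ_dvd_smul_sub hπ hres hmem n c
          have h2 : (σ ^ (j + 1) • b - b) - ((j + 1 : ℕ) : B) * (π ^ n * c) =
              (σ ^ j • (π ^ n * c) - π ^ n * c) +
                ((σ ^ j • b - b) - (j : B) * (π ^ n * c)) := by
            rw [pow_succ, mul_smul, ← hc, smul_sub]
            push_cast
            ring
          rw [h2]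
          exact dvd_add h1 ihj
      have h3 := hj m
      rw [hσm, one_smul, sub_self, zero_sub, dvd_neg] at h3
      -- cancel `π^n`
      have h4 : π ^ n * π ∣ π ^ n * ((m : B) * c) := by
        have : π ^ n * ((m : B) * c) = (m : B) * (π ^ n * c) := by ring
        rw [this, ← pow_succ]
        exact h3
      have h5 : π ∣ (m : B) * c :=
        (mul_dvd_mul_iff_left (pow_ne_zero n hπ.ne_zero)).mp h4
      have h6 : π ∣ c := (hprime.dvd_or_dvd h5).resolve_left hpm
      rw [hc, pow_succ]
      exact mul_dvd_mul_left _ h6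
  by_contra hne
  have hne' : σ • b - b ≠ 0 := sub_ne_zero.mpr hne
  have hfin : FiniteMultiplicity π (σ • b - b) :=
    FiniteMultiplicity.of_not_isUnit hπ.not_isUnit hne'
  exact (FiniteMultiplicity.not_iff_forall.mpr fun n => key n b) hfin

variable [FaithfulSMul I B] [Finite I]

theorem eq_one_of_mem_ker_of_pow_eq_one {q : ℕ} (hq : (q : B) ∈ maximalIdeal B)
    {σ : I} (hσ : σ ∈ (theta hπ hres).ker) {m : ℕ} (hm : m.Coprime q) (hσm : σ ^ m = 1) :
    σ = 1 := by
  apply FaithfulSMul.eq_of_smul_eq_smul (α := B)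
  intro b
  rw [one_smul]
  exact smul_eq_of_mem_ker_of_pow_eq_one hπ hres hq hσ hm hσm b

/-- **Wild inertia is a `q`-group.** -/
theorem isPGroup_ker_theta {q : ℕ} [hqp : Fact q.Prime] (hq : (q : B) ∈ maximalIdeal B) :
    IsPGroup q (theta hπ hres).ker := by
  rintro ⟨σ, hσ⟩
  have hpos : 0 < orderOf σ := orderOf_pos σ
  obtain ⟨a, m, hm, hord⟩ := Nat.exists_eq_pow_mul_and_not_dvd hpos.ne' q hqp.out.ne_one
  refine ⟨a, ?_⟩
  have hcop : m.Coprime q := (Nat.Coprime.symm ((Nat.Prime.coprime_iff_not_dvd hqp.out).mpr hm))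
  have h1 : (σ ^ q ^ a) ^ m = 1 := by
    rw [← pow_mul, ← hord, pow_orderOf_eq_one]
  have h2 : σ ^ q ^ a = 1 :=
    eq_one_of_mem_ker_of_pow_eq_one hπ hres hq (Subgroup.pow_mem _ hσ _) hcop h1
  exact Subtype.ext h2

/-- The tame quotient is cyclic. -/
theorem isCyclic_quotient_ker_theta : IsCyclic (I ⧸ (theta hπ hres).ker) :=
  isCyclic_of_injective_ringHom
    ((Units.coeHom (ResidueField B)).comp (QuotientGroup.kerLift (theta hπ hres)))
    (Units.val_injective.comp (QuotientGroup.kerLift_injective _))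

/-- A homomorphism whose image has order prime to `q` kills wild inertia. -/
theorem ker_theta_le_ker_of_coprime {q : ℕ} [Fact q.Prime] (hq : (q : B) ∈ maximalIdeal B)
    {H : Type*} [Group H] (f : I →* H) (hf : (Nat.card f.range).Coprime q) :
    (theta hπ hres).ker ≤ f.ker := by
  intro σ hσ
  obtain ⟨k, hk⟩ := isPGroup_ker_theta hπ hres hq ⟨σ, hσ⟩
  have hk' : σ ^ q ^ k = 1 := congrArg Subtype.val hk
  rw [MonoidHom.mem_ker]
  have h1 : (⟨f σ, σ, rfl⟩ : f.range) ^ q ^ k = 1 := by
    apply Subtype.ext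
    change f σ ^ q ^ k = 1
    rw [← map_pow, hk', map_one]
  have h2 : (⟨f σ, σ, rfl⟩ : f.range) ^ Nat.card f.range = 1 := pow_card_eq_one'
  have h3 : orderOf (⟨f σ, σ, rfl⟩ : f.range) ∣ Nat.gcd (q ^ k) (Nat.card f.range) :=
    Nat.dvd_gcd (orderOf_dvd_of_pow_eq_one h1) (orderOf_dvd_of_pow_eq_one h2)
  have h4 : Nat.gcd (q ^ k) (Nat.card f.range) = 1 :=
    Nat.Coprime.pow_left k hf.symm
  rw [h4, Nat.dvd_one, orderOf_eq_one_iff] at h3
  exact congrArg Subtype.val h3

include hπ hres in
/-- **Tame inertia is cyclic**: the image of `I` under a homomorphism whose image has order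
prime to the residue characteristic is cyclic. -/
theorem isCyclic_range_of_coprime {q : ℕ} [Fact q.Prime] (hq : (q : B) ∈ maximalIdeal B)
    {H : Type*} [Group H] (f : I →* H) (hf : (Nat.card f.range).Coprime q) :
    IsCyclic f.range := by
  have := isCyclic_quotient_ker_theta hπ hres
  have hle := ker_theta_le_ker_of_coprime hπ hres hq f hf
  let g : I ⧸ (theta hπ hres).ker →* f.range :=
    QuotientGroup.lift _ f.rangeRestrict (fun σ hσ => by
      apply Subtype.ext
      exact hle hσ)
  refine isCyclic_of_surjective g ?_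
  rintro ⟨_, σ, rfl⟩
  exact ⟨QuotientGroup.mk σ, rfl⟩

end Wild

/-! ### Equivariance of the tame character -/

section Conj

variable {π : B} (hπ : Irreducible π)
  (hres : ∀ (σ : I) (b : B), σ • b - b ∈ maximalIdeal B)

/-- Conjugating by a ring automorphism `φ` of `B` whose reduction is the `N`-th power map
raises the tame character to the `N`-th power. -/
theorem theta_conj_pow (φ : B ≃+* B) (N : ℕ)
    (hφ : ∀ b : B, residue B (φ b) = residue B b ^ N)
    (σ σ' : I) (h : ∀ b : B, σ' • b = φ (σ • φ.symm b)) :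
    theta hπ hres σ' = theta hπ hres σ ^ N := by
  have hirr : Irreducible (φ.symm π) := (MulEquiv.irreducible_iff φ.symm).mpr hπ
  obtain ⟨w, hw⟩ := IsDiscreteValuationRing.associated_of_irreducible B hπ hirr
  -- `φ π * φ w = π`
  have h1 : φ π * φ (w : B) = π := by
    rw [← map_mul, hw, RingEquiv.apply_symm_apply]
  -- the unit equation
  have h2 : π * ((unitOf hπ σ' : B) * φ (w : B)) =
      π * (φ (unitOf hπ σ : B) * φ (σ • (w : B))) := by
    rw [← mul_assoc, mul_unitOf, h π, ← hw, smul_mul', ← mul_unitOf hπ σ, map_mul, map_mul]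
    calc φ π * φ (unitOf hπ σ : B) * φ (σ • (w : B)) * φ (w : B)
        = (φ π * φ (w : B)) * (φ (unitOf hπ σ : B) * φ (σ • (w : B))) := by ring
      _ = π * (φ (unitOf hπ σ : B) * φ (σ • (w : B))) := by rw [h1]
  have h3 := mul_left_cancel₀ hπ.ne_zero h2
  have h4 := congrArg (residue B) h3
  rw [map_mul, map_mul, hφ (σ • (w : B)), residue_smul_eq hres, ← hφ (w : B)] at h4
  have hunit : residue B (φ (w : B)) ≠ 0 := by
    have : IsUnit (φ (w : B)) := (w.isUnit).map φ
    exact (this.map (residue B)).ne_zero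
  have h5 := mul_right_cancel₀ hunit h4
  apply Units.ext
  rw [Units.val_pow_eq_pow_val, coe_theta_apply, coe_theta_apply, h5, hφ]

variable [FaithfulSMul I B] [Finite I]

/-- For a homomorphism `f` killing wild inertia, conjugation by a Frobenius-like automorphism
is the `N`-th power map on the image. -/
theorem map_conj_eq_pow {H : Type*} [Group H] (f : I →* H)
    (hf : (theta hπ hres).ker ≤ f.ker) (φ : B ≃+* B) (N : ℕ)
    (hφ : ∀ b : B, residue B (φ b) = residue B b ^ N)
    (σ σ' : I) (h : ∀ b : B, σ' • b = φ (σ • φ.symm b)) :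
    f σ' = f σ ^ N := by
  have h1 := theta_conj_pow hπ hres φ N hφ σ σ' h
  have h2 : σ' * (σ ^ N)⁻¹ ∈ (theta hπ hres).ker := by
    rw [MonoidHom.mem_ker, map_mul, map_inv, map_pow, h1, mul_inv_cancel]
  have h3 := hf h2
  rw [MonoidHom.mem_ker, map_mul, map_inv, map_pow, mul_inv_eq_one] at h3
  exact h3

end Conj

end Fermat.Agent.S56x.Hens.TameCyclic
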