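import Mathlib
import Fermat.Prelude.Def_EllipticCurve_FrobeniusTrace
import Fermat.Agent.S56x.Hens.FiniteLevel
import Fermat.Agent.S56x.Hens.TameCyclic

/-!
# P-S56, bridge file (helper15): tame inertia of a place of `ℚ̄` is cyclic

Global corollaries, in the language of the Prelude, of `Hens/TameCyclic`:
for a place `P` of an algebraic Galois extension `L/ℚ` over the prime `q` and a homomorphism
`f : Gal(L/ℚ) →* H` factoring through a finite Galois level `E`,

* `isCyclic_map_inertiaSubgroupIn`: if the image of the inertia group of `P` has order prime to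
  `q`, it is cyclic;
* `map_conj_eq_pow_of_isFrobeniusAt`: under the same hypothesis, for a Frobenius element `φ` at
  `P` and `τ` in the inertia group, `f (φ τ φ⁻¹) = f τ ^ q`.
-/

set_option autoImplicit false
set_option linter.unusedSectionVars false
set_option linter.style.haveILetI false
set_option linter.unusedVariables false

open scoped Pointwise

namespace Fermat.Agent.S56x.Hens

open IsLocalRing

/-! ### Elementwise form of `IsFrobeniusAt` -/

section Frob

variable {L : Type*} [Field L] {K : Type*} [Field K] [Algebra K L]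

theorem isFrobeniusAt_iff (A : ValuationSubring L) (σ : L ≃ₐ[K] L) (q : ℕ) :
    A.IsFrobeniusAt σ q ↔
      σ ∈ A.decompositionSubgroup K ∧ ∀ x ∈ A, σ x - x ^ q ∈ A.nonunits := by
  constructor
  · rintro ⟨hσ, h⟩
    refine ⟨hσ, fun x hx => ?_⟩
    have h1 := h (residue A ⟨x, hx⟩)
    rw [← IsLocalRing.ResidueField.residue_smul, ← map_pow, ← sub_eq_zero, ← map_sub,
      residue_eq_zero_iff, ← ValuationSubring.coe_mem_nonunits_iff] at h1
    exact h1
  · rintro ⟨hσ, h⟩
    refine ⟨hσ, fun xbar => ?_⟩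
    obtain ⟨x, rfl⟩ := residue_surjective xbar
    rw [← IsLocalRing.ResidueField.residue_smul, ← map_pow, ← sub_eq_zero, ← map_sub,
      residue_eq_zero_iff, ← ValuationSubring.coe_mem_nonunits_iff]
    exact h x x.2

end Frob

/-! ### The decomposition group acts faithfully on the valuation ring -/

section Faithful

variable {E : Type*} [Field E] {K : Type*} [Field K] [Algebra K E]

theorem decomposition_smul_coe (A : ValuationSubring E) (σ : A.decompositionSubgroup K) (b : A) :
    ((σ • b : A) : E) = (σ : E ≃ₐ[K] E) (b : E) := rfl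

instance faithfulSMul_decompositionSubgroup (A : ValuationSubring E) :
    FaithfulSMul (A.decompositionSubgroup K) A where
  eq_of_smul_eq_smul := by
    intro σ τ h
    apply Subtype.ext
    ext x
    rcases A.mem_or_inv_mem x with hx | hx
    · have := congrArg (fun b : A => (b : E)) (h ⟨x, hx⟩)
      exact this
    · have h1 := congrArg (fun b : A => (b : E)) (h ⟨x⁻¹, hx⟩)
      simp only [decomposition_smul_coe, map_inv₀] at h1
      exact inv_injective h1

instance faithfulSMul_subgroup_decompositionSubgroup (A : ValuationSubring E)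
    (J : Subgroup (A.decompositionSubgroup K)) : FaithfulSMul J A where
  eq_of_smul_eq_smul := by
    intro σ τ h
    apply Subtype.ext
    exact FaithfulSMul.eq_of_smul_eq_smul (α := A) (fun b => h b)

end Faithful

/-! ### The global statements -/

section Global

variable {L : Type*} [Field L] [Algebra ℚ L] [IsGalois ℚ L]
variable (P : ValuationSubring L) (E : IntermediateField ℚ L) [FiniteDimensional ℚ E]
  [IsGalois ℚ E]

/-- Restriction from the decomposition group of `P` to the decomposition group of the place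
below. -/
noncomputable def restrictDecomp :
    P.decompositionSubgroup ℚ →* (below P E).decompositionSubgroup ℚ where
  toFun σ := ⟨AlgEquiv.restrictNormalHom E σ.1, restrictNormalHom_mem_decompositionSubgroup P E σ.2⟩
  map_one' := Subtype.ext (map_one _)
  map_mul' σ τ := Subtype.ext (map_mul _ _ _)

theorem coe_restrictDecomp (σ : P.decompositionSubgroup ℚ) :
    ((restrictDecomp P E σ : (below P E).decompositionSubgroup ℚ) : E ≃ₐ[ℚ] E) =
      AlgEquiv.restrictNormalHom E σ.1 := rfl

/-- The image of the inertia group of `P` at level `E`. -/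
noncomputable def inertiaLevel : Subgroup ((below P E).decompositionSubgroup ℚ) :=
  (P.inertiaSubgroup ℚ).map (restrictDecomp P E)

theorem inertiaLevel_hres (σ : inertiaLevel P E) (b : below P E) :
    σ • b - b ∈ maximalIdeal (below P E) := by
  obtain ⟨σ', τ, hτ, rfl⟩ := σ
  have h1 : (τ : L ≃ₐ[ℚ] L) ∈ P.inertiaSubgroupIn ℚ := by
    rw [ValuationSubring.inertiaSubgroupIn, Subgroup.mem_map]
    exact ⟨τ, hτ, rfl⟩
  have h2 := restrictNormalHom_mem_inertiaSubgroupIn P E h1
  rw [mem_inertiaSubgroupIn_iff] at h2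
  rw [← ValuationSubring.coe_mem_nonunits_iff]
  exact h2.2 (b : E) b.2

theorem restrictNormalHom_ker_eq :
    (AlgEquiv.restrictNormalHom E : (L ≃ₐ[ℚ] L) →* (E ≃ₐ[ℚ] E)).ker = E.fixingSubgroup := by
  ext σ
  rw [MonoidHom.mem_ker, IntermediateField.mem_fixingSubgroup_iff]
  constructor
  · intro h x hx
    have h1 := coe_restrictNormalHom_apply E σ ⟨x, hx⟩
    rw [h] at h1
    exact h1.symm
  · intro h
    ext x
    rw [coe_restrictNormalHom_apply]
    exact h x x.2

theorem finite_algEquiv_level : Finite (E ≃ₐ[ℚ] E) := by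
  have hfd : @Module.Finite ℚ E _ _ Algebra.toModule := by
    convert (inferInstance : FiniteDimensional ℚ E)
    exact Subsingleton.elim _ _
  exact @Finite.of_fintype _ (@AlgEquiv.fintype ℚ E _ _ _ hfd)

/-- The factorisation of `f` through the finite level `E`. -/
noncomputable def descend {H : Type*} [Group H] (f : (L ≃ₐ[ℚ] L) →* H)
    (hE : E.fixingSubgroup ≤ f.ker) : (E ≃ₐ[ℚ] E) →* H :=
  (AlgEquiv.restrictNormalHom E).liftOfSurjective
    (AlgEquiv.restrictNormalHom_surjective L) ⟨f, by
      rw [restrictNormalHom_ker_eq]; exact hE⟩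

theorem descend_restrict {H : Type*} [Group H] (f : (L ≃ₐ[ℚ] L) →* H)
    (hE : E.fixingSubgroup ≤ f.ker) (σ : L ≃ₐ[ℚ] L) :
    descend E f hE (AlgEquiv.restrictNormalHom E σ) = f σ :=
  MonoidHom.liftOfRightInverse_comp_apply _ _ _ _ σ

/-- The homomorphism on the finite-level inertia group induced by `f`. -/
noncomputable def levelHom {H : Type*} [Group H] (f : (L ≃ₐ[ℚ] L) →* H)
    (hE : E.fixingSubgroup ≤ f.ker) : inertiaLevel P E →* H :=
  ((descend E f hE).comp ((below P E).decompositionSubgroup ℚ).subtype).comp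
    (inertiaLevel P E).subtype

theorem levelHom_range {H : Type*} [Group H] (f : (L ≃ₐ[ℚ] L) →* H)
    (hE : E.fixingSubgroup ≤ f.ker) :
    (levelHom P E f hE).range = (P.inertiaSubgroupIn ℚ).map f := by
  ext h
  constructor
  · rintro ⟨⟨_, τ, hτ, rfl⟩, rfl⟩
    refine ⟨(τ : L ≃ₐ[ℚ] L), ?_, ?_⟩
    · rw [SetLike.mem_coe, ValuationSubring.inertiaSubgroupIn, Subgroup.mem_map]
      exact ⟨τ, hτ, rfl⟩
    · exact (descend_restrict E f hE τ.1).symm
  · rintro ⟨σ, hσ, rfl⟩
    rw [SetLike.mem_coe, ValuationSubring.inertiaSubgroupIn, Subgroup.mem_map] at hσ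
    obtain ⟨τ, hτ, rfl⟩ := hσ
    refine ⟨⟨restrictDecomp P E τ, τ, hτ, rfl⟩, ?_⟩
    exact descend_restrict E f hE τ.1

/-- **Tame inertia is cyclic** (global form): if the image under `f` of the inertia group of a
place `P` over `q` has order prime to `q`, then it is cyclic. -/
theorem isCyclic_map_inertiaSubgroupIn {q : ℕ} [Fact q.Prime] (hP : P.LiesOverPrime q)
    {H : Type*} [Group H] (f : (L ≃ₐ[ℚ] L) →* H) (hE : E.fixingSubgroup ≤ f.ker)
    (hf : (Nat.card ((P.inertiaSubgroupIn ℚ).map f)).Coprime q) :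
    IsCyclic ((P.inertiaSubgroupIn ℚ).map f) := by
  have hq : q.Prime := Fact.out
  have : IsDiscreteValuationRing (below P E) := isDiscreteValuationRing_below P E hq hP
  have : Finite (E ≃ₐ[ℚ] E) := finite_algEquiv_level E
  have : Finite (inertiaLevel P E) := inferInstance
  obtain ⟨π, hπ⟩ := IsDiscreteValuationRing.exists_irreducible (below P E)
  have hqm : ((q : ℕ) : below P E) ∈ maximalIdeal (below P E) := by
    rw [← ValuationSubring.coe_mem_nonunits_iff]
    have := below_liesOverPrime P E hP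
    have h2 : ((((q : ℕ) : below P E) : below P E) : E) = ((q : ℕ) : E) := by simp
    rw [h2]
    exact this
  have hrange := levelHom_range P E f hE
  have hcop : (Nat.card (levelHom P E f hE).range).Coprime q := by rw [hrange]; exact hf
  have := TameCyclic.isCyclic_range_of_coprime hπ (inertiaLevel_hres P E) hqm
    (levelHom P E f hE) hcop
  rw [hrange] at this
  exact this

theorem levelHom_apply {H : Type*} [Group H] (f : (L ≃ₐ[ℚ] L) →* H)
    (hE : E.fixingSubgroup ≤ f.ker) (τ : P.decompositionSubgroup ℚ)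
    (hτ : τ ∈ P.inertiaSubgroup ℚ) :
    levelHom P E f hE ⟨restrictDecomp P E τ, τ, hτ, rfl⟩ = f τ.1 :=
  descend_restrict E f hE τ.1

/-- **Frobenius acts on tame inertia by the `q`-th power**: under the hypothesis of
`isCyclic_map_inertiaSubgroupIn`, for a Frobenius element `φ` at `P` and `τ` in the inertia
group of `P`, `f (φ τ φ⁻¹) = f τ ^ q`. -/
theorem map_conj_eq_pow_of_isFrobeniusAt {q : ℕ} [Fact q.Prime] (hP : P.LiesOverPrime q)
    {H : Type*} [Group H] (f : (L ≃ₐ[ℚ] L) →* H) (hE : E.fixingSubgroup ≤ f.ker)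
    (hf : (Nat.card ((P.inertiaSubgroupIn ℚ).map f)).Coprime q)
    {φ : L ≃ₐ[ℚ] L} (hφ : P.IsFrobeniusAt φ q) {τ : L ≃ₐ[ℚ] L}
    (hτ : τ ∈ P.inertiaSubgroupIn ℚ) :
    f (φ * τ * φ⁻¹) = f τ ^ q := by
  have hq : q.Prime := Fact.out
  have : IsDiscreteValuationRing (below P E) := isDiscreteValuationRing_below P E hq hP
  have : Finite (E ≃ₐ[ℚ] E) := finite_algEquiv_level E
  have : Finite (inertiaLevel P E) := inferInstance
  obtain ⟨π, hπ⟩ := IsDiscreteValuationRing.exists_irreducible (below P E)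
  have hqm : ((q : ℕ) : below P E) ∈ maximalIdeal (below P E) := by
    rw [← ValuationSubring.coe_mem_nonunits_iff]
    have := below_liesOverPrime P E hP
    have h2 : ((((q : ℕ) : below P E) : below P E) : E) = ((q : ℕ) : E) := by simp
    rw [h2]
    exact this
  have hrange := levelHom_range P E f hE
  have hcop : (Nat.card (levelHom P E f hE).range).Coprime q := by rw [hrange]; exact hf
  have hker := TameCyclic.ker_theta_le_ker_of_coprime hπ (inertiaLevel_hres P E) hqm
    (levelHom P E f hE) hcop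
  -- the data
  rw [isFrobeniusAt_iff] at hφ
  obtain ⟨hφD, hφq⟩ := hφ
  rw [ValuationSubring.inertiaSubgroupIn, Subgroup.mem_map] at hτ
  obtain ⟨τ', hτ', rfl⟩ := hτ
  let φ' : P.decompositionSubgroup ℚ := ⟨φ, hφD⟩
  have hnormal : (P.inertiaSubgroup ℚ).Normal := by
    rw [ValuationSubring.inertiaSubgroup]; infer_instance
  have hconj : φ' * τ' * φ'⁻¹ ∈ P.inertiaSubgroup ℚ := hnormal.conj_mem τ' hτ' φ'
  let φB : below P E ≃+* below P E :=
    MulSemiringAction.toRingEquiv ((below P E).decompositionSubgroup ℚ) (below P E)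
      (restrictDecomp P E φ')
  have hφB : ∀ b : below P E, residue (below P E) (φB b) = residue (below P E) b ^ q := by
    intro b
    rw [← map_pow, ← sub_eq_zero, ← map_sub, residue_eq_zero_iff,
      ← ValuationSubring.coe_mem_nonunits_iff, mem_below_nonunits]
    have h1 := hφq ((b : E) : L) b.2
    have h2 : (((φB b - b ^ q : below P E) : E) : L) = φ ((b : E) : L) - ((b : E) : L) ^ q := by
      change ((AlgEquiv.restrictNormalHom E φ (b : E) - (b : E) ^ q : E) : L) = _
      rw [AddSubgroupClass.coe_sub, coe_restrictNormalHom_apply, SubmonoidClass.coe_pow]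
    rw [h2]
    exact h1
  have h := TameCyclic.map_conj_eq_pow hπ (inertiaLevel_hres P E) (levelHom P E f hE) hker φB q
    hφB ⟨restrictDecomp P E τ', τ', hτ', rfl⟩
    ⟨restrictDecomp P E (φ' * τ' * φ'⁻¹), _, hconj, rfl⟩ (by
      intro b
      apply Subtype.ext
      apply Subtype.ext
      change ((AlgEquiv.restrictNormalHom E (φ * τ'.1 * φ⁻¹) (b : E) : E) : L) =
        ((AlgEquiv.restrictNormalHom E φ (AlgEquiv.restrictNormalHom E τ'.1
          ((AlgEquiv.restrictNormalHom E φ)⁻¹ (b : E))) : E) : L)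
      rw [← map_inv, coe_restrictNormalHom_apply, coe_restrictNormalHom_apply,
        coe_restrictNormalHom_apply, coe_restrictNormalHom_apply]
      rfl)
  rw [levelHom_apply P E f hE _ hconj, levelHom_apply P E f hE _ hτ'] at h
  exact h

end Global

/-! ### Versions with an arbitrary finite level -/

section Closure

variable {L : Type*} [Field L] [Algebra ℚ L] [IsGalois ℚ L]

/-- Every finite subextension is contained in a finite Galois one (usable with the statements
of this file, i.e. with the instances in the form they expect). -/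
theorem exists_finite_galois_ge (E₀ : IntermediateField ℚ L) [h0 : FiniteDimensional ℚ E₀] :
    ∃ (E : IntermediateField ℚ L) (_ : FiniteDimensional ℚ E) (_ : IsGalois ℚ E), E₀ ≤ E := by
  have h0' : @Module.Finite ℚ E₀ _ _ (@Algebra.toModule ℚ E₀ _ _ DivisionRing.toRatAlgebra) := by
    convert h0
    exact Subsingleton.elim _ _
  have h1 : FiniteDimensional ℚ (IntermediateField.normalClosure ℚ E₀ L) := inferInstance
  have h2' := normalClosure.normal ℚ E₀ L
  have h2 : Normal ℚ (IntermediateField.normalClosure ℚ E₀ L) := by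
    convert h2'
    exact Subsingleton.elim _ _
  have h3 : IsGalois ℚ (IntermediateField.normalClosure ℚ E₀ L) := ⟨⟩
  refine ⟨_, h1, h3, ?_⟩
  intro x hx
  let g : ↥E₀ →ₐ[ℚ] L := RingHom.toRatAlgHom (algebraMap E₀ L)
  have h4 := AlgHom.fieldRange_le_normalClosure (F := ℚ) (K := E₀) (L := L) g
  exact h4 ⟨⟨x, hx⟩, rfl⟩

variable (P : ValuationSubring L)

theorem isCyclic_map_inertiaSubgroupIn_of_finite {q : ℕ} [Fact q.Prime] (hP : P.LiesOverPrime q)
    {H : Type*} [Group H] (f : (L ≃ₐ[ℚ] L) →* H) (E₀ : IntermediateField ℚ L)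
    [FiniteDimensional ℚ E₀] (hE₀ : E₀.fixingSubgroup ≤ f.ker)
    (hf : (Nat.card ((P.inertiaSubgroupIn ℚ).map f)).Coprime q) :
    IsCyclic ((P.inertiaSubgroupIn ℚ).map f) := by
  obtain ⟨E, _, _, hle⟩ := exists_finite_galois_ge E₀
  exact isCyclic_map_inertiaSubgroupIn P E hP f
    ((IntermediateField.fixingSubgroup_antitone hle).trans hE₀) hf

theorem map_conj_eq_pow_of_isFrobeniusAt_of_finite {q : ℕ} [Fact q.Prime]
    (hP : P.LiesOverPrime q) {H : Type*} [Group H] (f : (L ≃ₐ[ℚ] L) →* H)
    (E₀ : IntermediateField ℚ L) [FiniteDimensional ℚ E₀] (hE₀ : E₀.fixingSubgroup ≤ f.ker)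
    (hf : (Nat.card ((P.inertiaSubgroupIn ℚ).map f)).Coprime q)
    {φ : L ≃ₐ[ℚ] L} (hφ : P.IsFrobeniusAt φ q) {τ : L ≃ₐ[ℚ] L}
    (hτ : τ ∈ P.inertiaSubgroupIn ℚ) :
    f (φ * τ * φ⁻¹) = f τ ^ q := by
  obtain ⟨E, _, _, hle⟩ := exists_finite_galois_ge E₀
  exact map_conj_eq_pow_of_isFrobeniusAt P E hP f
    ((IntermediateField.fixingSubgroup_antitone hle).trans hE₀) hf hφ hτ

end Closure

/-! ### The case `L = AlgebraicClosure ℚ`, in the shape of the Prelude -/

section Qbar

local notation "Qb" => AlgebraicClosure ℚ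

variable (P : ValuationSubring Qb)

/-- **Tame inertia is cyclic**, Prelude shape: `f` is trivial on the automorphisms fixing a
finite-dimensional subfield `E₀` (as in `GaloisActionIsAdicContinuous`). -/
theorem isCyclic_map_inertiaSubgroupIn_qbar {q : ℕ} [Fact q.Prime] (hP : P.LiesOverPrime q)
    {H : Type*} [Group H] (f : (Qb ≃ₐ[ℚ] Qb) →* H) (E₀ : IntermediateField ℚ Qb)
    (hfd : FiniteDimensional ℚ E₀) (hE₀ : ∀ σ : Qb ≃ₐ[ℚ] Qb, (∀ x ∈ E₀, σ x = x) → f σ = 1)
    (hf : (Nat.card ((P.inertiaSubgroupIn ℚ).map f)).Coprime q) :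
    IsCyclic ((P.inertiaSubgroupIn ℚ).map f) := by
  haveI := Fermat.Agent.Lib.isGalois_algebraicClosure_rat
  refine isCyclic_map_inertiaSubgroupIn_of_finite P hP f E₀ (fun σ hσ => ?_) hf
  rw [MonoidHom.mem_ker]
  exact hE₀ σ fun x hx => (IntermediateField.mem_fixingSubgroup_iff E₀ σ).mp hσ x hx

/-- **Frobenius acts on tame inertia by the `q`-th power**, Prelude shape. -/
theorem map_conj_eq_pow_of_isFrobeniusAt_qbar {q : ℕ} [Fact q.Prime] (hP : P.LiesOverPrime q)
    {H : Type*} [Group H] (f : (Qb ≃ₐ[ℚ] Qb) →* H) (E₀ : IntermediateField ℚ Qb)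
    (hfd : FiniteDimensional ℚ E₀) (hE₀ : ∀ σ : Qb ≃ₐ[ℚ] Qb, (∀ x ∈ E₀, σ x = x) → f σ = 1)
    (hf : (Nat.card ((P.inertiaSubgroupIn ℚ).map f)).Coprime q)
    {φ : Qb ≃ₐ[ℚ] Qb} (hφ : P.IsFrobeniusAt φ q) {τ : Qb ≃ₐ[ℚ] Qb}
    (hτ : τ ∈ P.inertiaSubgroupIn ℚ) :
    f (φ * τ * φ⁻¹) = f τ ^ q := by
  haveI := Fermat.Agent.Lib.isGalois_algebraicClosure_rat
  refine map_conj_eq_pow_of_isFrobeniusAt_of_finite P hP f E₀ (fun σ hσ => ?_) hf hφ hτ
  rw [MonoidHom.mem_ker]
  exact hE₀ σ fun x hx => (IntermediateField.mem_fixingSubgroup_iff E₀ σ).mp hσ x hx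

end Qbar

end Fermat.Agent.S56x.Hens
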