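import Mathlib
import Fermat.Agent.S56x.Hens.FiniteLevel

/-!
# Restriction maps the inertia group ONTO the inertia group of the place below (helper15)

For a Galois extension `L / ℚ` (typically `L = AlgebraicClosure ℚ`), a valuation subring `P` of `L`
over a rational prime `p` and a finite Galois level `E ⊆ L`:

* `exists_mem_inertiaSubgroupIn_restrict` : every element of the inertia group of the place
  `below P E` of `E` is the restriction of an element of the inertia group of `P` itself;
* `map_inertiaSubgroupIn` : `(P.inertiaSubgroupIn ℚ).map (restrictNormalHom E) =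
  (below P E).inertiaSubgroupIn ℚ`.

This is the place-preserving version of `Lib/CFT/S14/Bridge.exists_inertia_lift_aux` (same proof:
surjectivity of the decomposition group of `L / E` onto the automorphisms of the residue field
extension, `Ideal.Quotient.stabilizerHom_surjective_of_profinite`).

Also the dictionary with Mathlib's `Ideal.inertia` for the prime `primeUnder P E` of `𝓞 E` cut out
by `P`.
-/

set_option autoImplicit false

open scoped Pointwise

namespace Fermat.Agent.S56x.Hens

open Fermat.Agent.Lib Fermat.Agent.Lib.CFT.S14.Bridge NumberField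

section PrimeBelow

variable {L : Type*} [Field L] [Algebra ℚ L]
variable (P : ValuationSubring L) (E : IntermediateField ℚ L)

/-- The prime of the ring of integers of `E` cut out by the place `P` of `L`. -/
noncomputable def primeUnder : Ideal (𝓞 E) :=
  (primeOfValuationSubring P).comap (toIntegers (L := L) E)

theorem mem_primeUnder {x : 𝓞 E} : x ∈ primeUnder P E ↔ (((x : E) : L)) ∈ P.nonunits := by
  rw [primeUnder, Ideal.mem_comap, mem_primeOfValuationSubring, coe_toIntegers]
  rfl

theorem mem_primeUnder_iff_below {x : 𝓞 E} :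
    x ∈ primeUnder P E ↔ (x : E) ∈ (below P E).nonunits := by
  rw [mem_primeUnder, mem_below_nonunits]

instance primeUnder_isPrime : (primeUnder P E).IsPrime := by
  have := primeOfValuationSubring_isPrime P
  exact Ideal.comap_isPrime _ _

theorem natCast_mem_primeUnder {p : ℕ} (hP : P.LiesOverPrime p) :
    ((p : ℕ) : 𝓞 E) ∈ primeUnder P E := by
  rw [mem_primeUnder]
  have h : (((((p : ℕ) : 𝓞 E) : 𝓞 E) : E) : L) = ((p : ℕ) : L) := by
    simp
  rw [h]
  exact hP

theorem primeUnder_ne_bot {p : ℕ} (hp : p.Prime) (hP : P.LiesOverPrime p) :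
    primeUnder P E ≠ ⊥ := by
  intro h
  have h1 := natCast_mem_primeUnder P E hP
  rw [h, Ideal.mem_bot] at h1
  have h2 : ((p : ℕ) : E) = 0 := by
    have := congrArg (fun x : 𝓞 E => (x : E)) h1
    simpa using this
  have : CharZero E := algebraRat.charZero E
  exact hp.ne_zero (by exact_mod_cast h2)

end PrimeBelow

section Onto

variable {L : Type*} [Field L] [Algebra ℚ L] [IsGalois ℚ L]
variable (P : ValuationSubring L) (E : IntermediateField ℚ L) [NumberField E] [IsGalois ℚ E]

omit [IsGalois ℚ L] [NumberField E] [IsGalois ℚ E] in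
/-- The inertia group of the place `below P E` in the language of Mathlib's `Ideal.inertia`. -/
theorem mem_inertia_primeUnder_of_mem {τ : E ≃ₐ[ℚ] E}
    (hτ : τ ∈ (below P E).inertiaSubgroupIn ℚ) :
    τ ∈ Ideal.inertia Gal(E/ℚ) (primeUnder P E) := by
  intro x
  change τ • x - x ∈ primeUnder P E
  rw [mem_primeUnder_iff_below]
  rw [mem_inertiaSubgroupIn_iff] at hτ
  have hx : (x : E) ∈ below P E := by
    rw [mem_below]
    exact mem_valuationSubring_of_isIntegral P
      ((RingOfIntegers.isIntegral_coe x).algebraMap (B := L))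
  exact hτ.2 (x : E) hx

/-- **Surjectivity for inertia.** Every element of the inertia group of the place of `E` below `P`
is the restriction of an element of the inertia group of `P`. -/
theorem exists_mem_inertiaSubgroupIn_restrict {p : ℕ} (hp : p.Prime)
    (hP : P.LiesOverPrime p) (τ : E ≃ₐ[ℚ] E)
    (hτ : τ ∈ (below P E).inertiaSubgroupIn ℚ) :
    ∃ σ ∈ P.inertiaSubgroupIn ℚ, AlgEquiv.restrictNormalHom E σ = τ := by
  classical
  have hLalg : Algebra.IsAlgebraic ℚ L := inferInstance
  -- Step 1: lift to the decomposition group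
  have hτD : τ ∈ (below P E).decompositionSubgroup ℚ :=
    ((mem_inertiaSubgroupIn_iff _ _).mp hτ).1
  obtain ⟨s1, hs1D, hs1res⟩ := exists_mem_decompositionSubgroup_restrict P E hp hP τ hτD
  have hτI := mem_inertia_primeUnder_of_mem P E hτ
  -- Step 2: relative set-up
  have hGalEL : IsGalois E L := IsGalois.tower_top_intermediateField E
  have hIntEL : Algebra.IsIntegral E L := inferInstance
  let _ := relAlgebra (L := L) E
  have := rel_smulComm (L := L) E
  have := rel_isInvariant (L := L) E
  let _ : TopologicalSpace (integralClosure ℤ L) := ⊥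
  have : DiscreteTopology (integralClosure ℤ L) := ⟨rfl⟩
  have := rel_continuousSMul (L := L) E
  let PP : Ideal (integralClosure ℤ L) := primeOfValuationSubring P
  have hPPprime : PP.IsPrime := primeOfValuationSubring_isPrime P
  let Pid : Ideal (𝓞 E) := primeUnder P E
  have hPPunder : PP.under (𝓞 E) = Pid := rfl
  have hPPmem : ∀ b : integralClosure ℤ L, b ∈ PP ↔ (b : L) ∈ P.nonunits := fun b => Iff.rfl
  -- `s1` preserves the nonunits of `P`
  have hs1nonunits : ∀ x : L, s1 x ∈ P.nonunits ↔ x ∈ P.nonunits := by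
    intro x
    have h1 : s1⁻¹ • P = P := by
      have := MulAction.mem_stabilizer_iff.mp (Subgroup.inv_mem _ hs1D)
      exact this
    have h2 := mem_smul_nonunits_iff (s1⁻¹) P (x := x)
    rw [h1, inv_inv] at h2
    exact h2.symm
  have hs1stab : s1 ∈ MulAction.stabilizer (L ≃ₐ[ℚ] L) PP := by
    rw [MulAction.mem_stabilizer_iff]
    ext b
    rw [Ideal.mem_pointwise_smul_iff_inv_smul_mem, hPPmem, hPPmem, ← hs1nonunits]
    change s1 (s1⁻¹ (b : L)) ∈ P.nonunits ↔ _
    rw [show s1 (s1⁻¹ (b : L)) = (b : L) from s1.apply_symm_apply _]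
  have hLO : PP.LiesOver Pid := ⟨hPPunder.symm⟩
  -- restriction of scalars from `E` to `ℚ`
  have hres : ∀ g : L ≃ₐ[E] L, AlgEquiv.restrictNormalHom E (g.restrictScalars ℚ) = 1 := by
    intro g
    ext m
    rw [coe_restrictNormalHom_apply]
    exact g.commutes m
  -- Step 3: the automorphism of the residue field induced by `s1`
  let e0 := Ideal.Quotient.stabilizerHom PP (PP.under ℤ) (L ≃ₐ[ℚ] L) ⟨s1, hs1stab⟩
  have he0 : ∀ b : integralClosure ℤ L,
      e0 (Ideal.Quotient.mk PP b) = Ideal.Quotient.mk PP (s1 • b) := fun b => rfl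
  let e : (integralClosure ℤ L ⧸ PP) ≃ₐ[𝓞 E ⧸ Pid] (integralClosure ℤ L ⧸ PP) :=
    AlgEquiv.ofRingEquiv (f := e0.toRingEquiv) (by
      intro x
      obtain ⟨x, rfl⟩ := Ideal.Quotient.mk_surjective x
      rw [Ideal.Quotient.algebraMap_mk_of_liesOver]
      change e0 (Ideal.Quotient.mk PP (toIntegers E x)) = Ideal.Quotient.mk PP (toIntegers E x)
      rw [he0, Ideal.Quotient.eq, hPPmem]
      change s1 (((x : E) : L)) - ((x : E) : L) ∈ P.nonunits
      have h1 : s1 (((x : E) : L)) = (((τ • x : 𝓞 E) : E) : L) := by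
        rw [← coe_restrictNormalHom_apply, hs1res]
        rfl
      rw [h1]
      have h2 := (mem_primeUnder (P := P) (E := E) (x := τ • x - x)).mp (hτI x)
      have h3 : ((((τ • x - x : 𝓞 E) : 𝓞 E) : E) : L)
          = (((τ • x : 𝓞 E) : E) : L) - ((x : E) : L) := by
        simp
      rw [h3] at h2
      exact h2)
  have he : ∀ b : integralClosure ℤ L,
      e (Ideal.Quotient.mk PP b) = Ideal.Quotient.mk PP (s1 • b) := fun b => rfl
  obtain ⟨r, hr⟩ := Ideal.Quotient.stabilizerHom_surjective_of_profinite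
    (G := L ≃ₐ[E] L) Pid PP e
  -- `r` and `s1` agree modulo `PP`
  have hrs : ∀ b : integralClosure ℤ L, (r : L ≃ₐ[E] L) (b : L) - s1 (b : L) ∈ P.nonunits := by
    intro b
    have h1 := DFunLike.congr_fun hr (Ideal.Quotient.mk PP b)
    rw [he, Ideal.Quotient.stabilizerHom_apply, Ideal.Quotient.eq, hPPmem] at h1
    exact h1
  have hrinv : ∀ b : integralClosure ℤ L, (b : L) ∈ P.nonunits →
      (r : L ≃ₐ[E] L)⁻¹ (b : L) ∈ P.nonunits := by
    intro b hb
    have h1 : b ∈ (r : L ≃ₐ[E] L) • PP := by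
      rw [MulAction.mem_stabilizer_iff.mp r.2]
      exact hb
    rw [Ideal.mem_pointwise_smul_iff_inv_smul_mem, hPPmem] at h1
    exact h1
  -- Step 4: the final element
  let s : L ≃ₐ[ℚ] L := ((r : L ≃ₐ[E] L).restrictScalars ℚ)⁻¹ * s1
  have hsres : AlgEquiv.restrictNormalHom E s = τ := by
    change AlgEquiv.restrictNormalHom E (((r : L ≃ₐ[E] L).restrictScalars ℚ)⁻¹ * s1) = τ
    rw [map_mul, map_inv, hres, hs1res, inv_one, one_mul]
  have hsint : ∀ b : L, IsIntegral ℤ b → s b - b ∈ P.nonunits := by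
    intro b hb
    have h1 := hrs ⟨b, hb⟩
    have h2 := hrinv (((r : L ≃ₐ[E] L) • (⟨b, hb⟩ : integralClosure ℤ L))
      - s1 • (⟨b, hb⟩ : integralClosure ℤ L)) h1
    have h3 : (r : L ≃ₐ[E] L)⁻¹ ((((r : L ≃ₐ[E] L) • (⟨b, hb⟩ : integralClosure ℤ L))
      - s1 • (⟨b, hb⟩ : integralClosure ℤ L) : integralClosure ℤ L) : L) = b - s b := by
      change (r : L ≃ₐ[E] L)⁻¹ ((r : L ≃ₐ[E] L) b - s1 b) = b - s b
      rw [map_sub]
      congr 1
      exact (r : L ≃ₐ[E] L).symm_apply_apply b
    rw [h3] at h2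
    have := P.nonunits.neg_mem h2
    simpa using this
  exact ⟨s, mem_inertiaSubgroupIn_of_integers P hp hP s hsint, hsres⟩

/-- The image of the inertia group of `P` under restriction is the inertia group of the place
below. -/
theorem map_inertiaSubgroupIn {p : ℕ} (hp : p.Prime) (hP : P.LiesOverPrime p) :
    (P.inertiaSubgroupIn ℚ).map (AlgEquiv.restrictNormalHom E) =
      (below P E).inertiaSubgroupIn ℚ := by
  ext τ
  rw [Subgroup.mem_map]
  constructor
  · rintro ⟨σ, hσ, rfl⟩
    exact restrictNormalHom_mem_inertiaSubgroupIn P E hσ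
  · intro hτ
    exact exists_mem_inertiaSubgroupIn_restrict P E hp hP τ hτ

omit [IsGalois ℚ L] [IsGalois ℚ E] in
/-- Converse dictionary: Mathlib's `Ideal.inertia` of the prime cut out by `P` is contained in the
inertia group of the place `below P E`. -/
theorem mem_inertiaSubgroupIn_of_mem_inertia {p : ℕ} (hp : p.Prime) (hP : P.LiesOverPrime p)
    {τ : E ≃ₐ[ℚ] E} (hτ : τ ∈ Ideal.inertia Gal(E/ℚ) (primeUnder P E)) :
    τ ∈ (below P E).inertiaSubgroupIn ℚ := by
  have hEalg : Algebra.IsAlgebraic ℚ E := inferInstance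
  refine mem_inertiaSubgroupIn_of_integers (below P E) hp (below_liesOverPrime P E hP) τ ?_
  intro b hb
  obtain ⟨x, hx⟩ := (IsIntegralClosure.isIntegral_iff (A := 𝓞 E)).mp hb
  have h1 : τ • x - x ∈ primeUnder P E := hτ x
  rw [mem_primeUnder_iff_below] at h1
  have h2 : (((τ • x - x : 𝓞 E) : 𝓞 E) : E) = τ b - b := by
    have h3 : ((x : 𝓞 E) : E) = b := hx
    rw [← h3]
    rfl
  rw [← h2]
  exact h1

omit [IsGalois ℚ L] [IsGalois ℚ E] in
theorem mem_inertiaSubgroupIn_below_iff {p : ℕ} (hp : p.Prime) (hP : P.LiesOverPrime p)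
    {τ : E ≃ₐ[ℚ] E} :
    τ ∈ (below P E).inertiaSubgroupIn ℚ ↔ τ ∈ Ideal.inertia Gal(E/ℚ) (primeUnder P E) :=
  ⟨mem_inertia_primeUnder_of_mem P E, mem_inertiaSubgroupIn_of_mem_inertia P E hp hP⟩

/-- Every element of Mathlib's inertia group of the prime of `𝓞 E` cut out by `P` is the
restriction of an element of the inertia group of `P`. -/
theorem exists_mem_inertiaSubgroupIn_restrict_of_mem_inertia {p : ℕ} (hp : p.Prime)
    (hP : P.LiesOverPrime p) (τ : E ≃ₐ[ℚ] E)
    (hτ : τ ∈ Ideal.inertia Gal(E/ℚ) (primeUnder P E)) :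
    ∃ σ ∈ P.inertiaSubgroupIn ℚ, AlgEquiv.restrictNormalHom E σ = τ :=
  exists_mem_inertiaSubgroupIn_restrict P E hp hP τ
    (mem_inertiaSubgroupIn_of_mem_inertia P E hp hP hτ)

end Onto

/-! ### The case `L = AlgebraicClosure ℚ`, finite-dimensional levels -/

section QbarLevel

local notation "Qbar" => AlgebraicClosure ℚ

variable (P : ValuationSubring Qbar) (E : IntermediateField ℚ Qbar) [FiniteDimensional ℚ E]
  [IsGalois ℚ E]

/-- **Inertia ONTO, `Qbar` form.** -/
theorem exists_mem_inertiaSubgroupIn_restrict_qbar {p : ℕ} (hp : p.Prime)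
    (hP : P.LiesOverPrime p) (τ : E ≃ₐ[ℚ] E)
    (hτ : τ ∈ (below P E).inertiaSubgroupIn ℚ) :
    ∃ σ ∈ P.inertiaSubgroupIn ℚ, AlgEquiv.restrictNormalHom E σ = τ := by
  have := Fermat.Agent.Lib.isGalois_algebraicClosure_rat
  have : NumberField E := ⟨⟩
  exact exists_mem_inertiaSubgroupIn_restrict P E hp hP τ hτ

theorem map_inertiaSubgroupIn_qbar {p : ℕ} (hp : p.Prime) (hP : P.LiesOverPrime p) :
    (P.inertiaSubgroupIn ℚ).map (AlgEquiv.restrictNormalHom E) =
      (below P E).inertiaSubgroupIn ℚ := by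
  have := Fermat.Agent.Lib.isGalois_algebraicClosure_rat
  have : NumberField E := ⟨⟩
  exact map_inertiaSubgroupIn P E hp hP

/-- An element of the level `E` fixed by the whole inertia group of `P` is fixed by the inertia
group of the place below. -/
theorem apply_eq_of_forall_inertia_fix {p : ℕ} (hp : p.Prime) (hP : P.LiesOverPrime p)
    {x : E} (hx : ∀ σ ∈ P.inertiaSubgroupIn ℚ, σ (x : Qbar) = (x : Qbar))
    {τ : E ≃ₐ[ℚ] E} (hτ : τ ∈ (below P E).inertiaSubgroupIn ℚ) : τ x = x := by
  obtain ⟨σ, hσ, rfl⟩ := exists_mem_inertiaSubgroupIn_restrict_qbar P E hp hP τ hτ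
  apply Subtype.ext
  rw [coe_restrictNormalHom_apply]
  exact hx σ hσ

end QbarLevel

end Fermat.Agent.S56x.Hens
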