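import Mathlib
import Fermat.Prelude.Def_GaloisRep_CompletionBridge
import Fermat.Prelude.Def_ExtEndgame_ProductionDatum
import Fermat.Agent.Lib.CFT.Profinite.BridgeLocalLevels
import Fermat.Agent.S56x.Cheb.DecompDense

/-!
# P-S56, bridge file (helper15): the local Galois group IS the decomposition group

`localGaloisToGlobal q : Gal(ℚ̄_q/ℚ_q) →* Gal(ℚ̄/ℚ)` of the Prelude maps ONTO the decomposition
group of the `q`-adic place `padicPlace q`:

* `exists_localGaloisToGlobal_eq`: every `σ` in the decomposition group is `localGaloisToGlobal q h`;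
* `range_localGaloisToGlobal`: the range is exactly the decomposition group.

Proof: the finite-level statement (density) is `Cheb/DecompDense` (helper89); the passage to
the limit is compactness of the local Galois group for the Krull topology.
-/

set_option autoImplicit false
set_option linter.unusedSectionVars false
set_option linter.style.haveILetI false

open scoped Pointwise

namespace Fermat.Agent.S56x.Hens

open Fermat.Agent.Lib.CFT.Profinite.Bridge

local notation "Qb" => AlgebraicClosure ℚ
local notation "GQ" => (AlgebraicClosure ℚ ≃ₐ[ℚ] AlgebraicClosure ℚ)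

variable (q : ℕ) [Fact q.Prime]

local notation "Ωq" => PadicAlgCl q
local notation "Gq" => (PadicAlgCl q ≃ₐ[ℚ_[q]] PadicAlgCl q)

/-- The set of local automorphisms whose image agrees with `σ` at `x`. -/
def agreeSet (σ : GQ) (x : Qb) : Set Gq := {h | localGaloisToGlobal q h x = σ x}

/-- A local automorphism fixing `ι x` has image fixing `x`. -/
theorem localGaloisToGlobal_apply_eq_of_fix {u : Gq} {x : Qb}
    (hu : u (padicEmbedding q x) = padicEmbedding q x) : localGaloisToGlobal q u x = x := by
  have hinj : Function.Injective (padicEmbedding q) := (padicEmbedding q).toRingHom.injective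
  apply hinj
  rw [padicEmbedding_localGaloisToGlobal, hu]

/-- The sets `agreeSet` are closed (indeed clopen) for the Krull topology. -/
theorem isClosed_agreeSet (σ : GQ) (x : Qb) : IsClosed (agreeSet q σ x) := by
  rw [← isOpen_compl_iff, isOpen_iff_forall_mem_open]
  intro h hh
  -- the open subgroup fixing `ι x`
  let W : IntermediateField ℚ_[q] Ωq := IntermediateField.adjoin ℚ_[q] {padicEmbedding q x}
  have hint : IsIntegral ℚ_[q] (padicEmbedding q x) :=
    Algebra.IsIntegral.isIntegral (padicEmbedding q x)
  have hfd : FiniteDimensional ℚ_[q] W := IntermediateField.adjoin.finiteDimensional hint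
  have hopen : IsOpen (W.fixingSubgroup : Set Gq) := W.fixingSubgroup_isOpen
  refine ⟨h • (W.fixingSubgroup : Set Gq), ?_, hopen.leftCoset h, ?_⟩
  · rintro _ ⟨u, hu, rfl⟩
    have hux : u (padicEmbedding q x) = padicEmbedding q x :=
      (IntermediateField.mem_fixingSubgroup_iff W u).mp hu _
        (IntermediateField.subset_adjoin ℚ_[q] _ (Set.mem_singleton _))
    intro hmem
    apply hh
    change localGaloisToGlobal q (h * u) x = σ x at hmem
    change localGaloisToGlobal q h x = σ x
    rw [map_mul, AlgEquiv.mul_apply, localGaloisToGlobal_apply_eq_of_fix q hux] at hmem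
    exact hmem
  · exact ⟨1, Subgroup.one_mem _, by simp⟩

/-- Finite intersections of the sets `agreeSet` are nonempty: this is the density statement. -/
theorem nonempty_iInter_agreeSet (σ : GQ) (hσ : σ ∈ (padicPlace q).decompositionSubgroup ℚ)
    (T : Finset Qb) : (⋂ x ∈ T, agreeSet q σ x).Nonempty := by
  let F : IntermediateField ℚ Qb := IntermediateField.adjoin ℚ (T : Set Qb)
  have hfd : FiniteDimensional ℚ F :=
    IntermediateField.finiteDimensional_adjoin fun x _ =>
      (AlgebraicClosure.isAlgebraic ℚ).isIntegral.isIntegral x
  obtain ⟨h, s, hs, hσs⟩ := Fermat.Agent.S56x.Cheb.exists_local_mul_of_mem_decomposition q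
    (F := F) σ hσ
  refine ⟨h, ?_⟩
  simp only [Set.mem_iInter]
  intro x hx
  change localGaloisToGlobal q h x = σ x
  have hxF : x ∈ F := IntermediateField.subset_adjoin ℚ _ hx
  have hsx : s x = x := (IntermediateField.mem_fixingSubgroup_iff F s).mp hs x hxF
  rw [hσs, AlgEquiv.mul_apply, hsx]

/-- **Surjectivity onto the decomposition group.** -/
theorem exists_localGaloisToGlobal_eq (σ : GQ)
    (hσ : σ ∈ (padicPlace q).decompositionSubgroup ℚ) :
    ∃ h : Gq, localGaloisToGlobal q h = σ := by
  have hne : (Set.univ ∩ ⋂ x : Qb, agreeSet q σ x).Nonempty := by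
    apply IsCompact.inter_iInter_nonempty isCompact_univ _ (isClosed_agreeSet q σ)
    intro T
    rw [Set.univ_inter]
    exact nonempty_iInter_agreeSet q σ hσ T
  obtain ⟨h, -, hh⟩ := hne
  refine ⟨h, ?_⟩
  ext x
  exact Set.mem_iInter.mp hh x

/-- The range of `localGaloisToGlobal q` is the decomposition group of `padicPlace q`. -/
theorem range_localGaloisToGlobal :
    (localGaloisToGlobal q).range = (padicPlace q).decompositionSubgroup ℚ := by
  ext σ
  constructor
  · rintro ⟨h, rfl⟩
    exact localGaloisToGlobal_mem_decompositionSubgroup q h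
  · intro hσ
    exact exists_localGaloisToGlobal_eq q σ hσ

/-- `localGaloisToGlobal q` is injective (Krasner, via `Profinite/BridgeLevels`). -/
theorem localGaloisToGlobal_injective : Function.Injective (localGaloisToGlobal q) := by
  rw [injective_iff_map_eq_one]
  intro h hh
  ext y
  let E : IntermediateField ℚ_[q] Ωq := IntermediateField.adjoin ℚ_[q] {y}
  have hfd : FiniteDimensional ℚ_[q] E :=
    IntermediateField.adjoin.finiteDimensional (Algebra.IsIntegral.isIntegral y)
  obtain ⟨F, _, hle⟩ := exists_comap_fixingSubgroup_le q E
  have hmem : h ∈ F.fixingSubgroup.comap (localGaloisToGlobal q) := by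
    rw [Subgroup.mem_comap, hh]
    exact Subgroup.one_mem _
  exact (IntermediateField.mem_fixingSubgroup_iff E h).mp (hle hmem) y
    (IntermediateField.subset_adjoin ℚ_[q] _ (Set.mem_singleton _))

/-- The local Galois group is isomorphic to the decomposition group of `padicPlace q`. -/
noncomputable def localEquivDecomposition :
    Gq ≃* (padicPlace q).decompositionSubgroup ℚ :=
  (MonoidHom.ofInjective (localGaloisToGlobal_injective q)).trans
    (MulEquiv.subgroupCongr (range_localGaloisToGlobal q))

theorem coe_localEquivDecomposition (h : Gq) :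
    ((localEquivDecomposition q h : (padicPlace q).decompositionSubgroup ℚ) : GQ) =
      localGaloisToGlobal q h := rfl

/-- Every subgroup of the decomposition group is the image of its preimage; in particular this
applies to the inertia group (`(rel)` of note 1448 in its strongest form). -/
theorem map_comap_of_le_decomposition {H : Subgroup GQ}
    (hH : H ≤ (padicPlace q).decompositionSubgroup ℚ) :
    (H.comap (localGaloisToGlobal q)).map (localGaloisToGlobal q) = H := by
  rw [Subgroup.map_comap_eq, inf_eq_right, range_localGaloisToGlobal]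
  exact hH

theorem inertiaSubgroupIn_le_decomposition :
    (padicPlace q).inertiaSubgroupIn ℚ ≤ (padicPlace q).decompositionSubgroup ℚ := by
  intro σ hσ
  rw [ValuationSubring.inertiaSubgroupIn, Subgroup.mem_map] at hσ
  obtain ⟨τ, -, rfl⟩ := hσ
  exact τ.2

/-- The image of the local inertia group (preimage of the global inertia group of
`padicPlace q`) is the whole global inertia group. -/
theorem map_comap_inertiaSubgroupIn :
    (((padicPlace q).inertiaSubgroupIn ℚ).comap (localGaloisToGlobal q)).map
      (localGaloisToGlobal q) = (padicPlace q).inertiaSubgroupIn ℚ :=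
  map_comap_of_le_decomposition q (inertiaSubgroupIn_le_decomposition q)

/-! ### `Nat.Primes` forms (the Prelude's `primeLocalToGlobal`) -/

section Primes

open ExtCitation

variable (q : Nat.Primes)

theorem range_primeLocalToGlobal :
    (primeLocalToGlobal q).range = (primeLocalPlace q).decompositionSubgroup ℚ :=
  letI : Fact (q : ℕ).Prime := ⟨q.2⟩
  range_localGaloisToGlobal (q : ℕ)

theorem primeLocalToGlobal_injective : Function.Injective (primeLocalToGlobal q) :=
  letI : Fact (q : ℕ).Prime := ⟨q.2⟩
  localGaloisToGlobal_injective (q : ℕ)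

theorem exists_primeLocalToGlobal_eq (σ : GQ)
    (hσ : σ ∈ (primeLocalPlace q).decompositionSubgroup ℚ) :
    ∃ h : primeLocalGaloisGroup q, primeLocalToGlobal q h = σ :=
  letI : Fact (q : ℕ).Prime := ⟨q.2⟩
  exists_localGaloisToGlobal_eq (q : ℕ) σ hσ

theorem map_comap_primeLocal_of_le_decomposition {H : Subgroup GQ}
    (hH : H ≤ (primeLocalPlace q).decompositionSubgroup ℚ) :
    (H.comap (primeLocalToGlobal q)).map (primeLocalToGlobal q) = H :=
  letI : Fact (q : ℕ).Prime := ⟨q.2⟩
  map_comap_of_le_decomposition (q : ℕ) hH

theorem map_comap_primeLocal_inertiaSubgroupIn :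
    (((primeLocalPlace q).inertiaSubgroupIn ℚ).comap (primeLocalToGlobal q)).map
      (primeLocalToGlobal q) = (primeLocalPlace q).inertiaSubgroupIn ℚ :=
  letI : Fact (q : ℕ).Prime := ⟨q.2⟩
  map_comap_inertiaSubgroupIn (q : ℕ)

end Primes

end Fermat.Agent.S56x.Hens
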