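import Mathlib
import Fermat.Agent.S56x.Hens.TameGlobal

/-!
# P-S56, bridge file (helper15): homomorphisms defined on the inertia group only

Complements `Hens/TameGlobal`:

* `isCyclic_range_of_inertiaHom`: a homomorphism `g` defined on the inertia group
  `P.inertiaSubgroupIn ℚ` of a place `P` over `q`, trivial on the elements fixing a finite
  Galois level `E`, whose image has order prime to `q`, has cyclic image;
* `inertia_additive_proportional`: hypothesis `(F)` of `Local/UnipotentTangent.exists_coboundary`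
  (helper53): two additive characters of the inertia group at `q` with values in a field of
  characteristic `p ≠ q`, trivial on the elements fixing a finite level, are proportional.
-/

set_option autoImplicit false
set_option linter.unusedSectionVars false
set_option linter.unusedVariables false
set_option linter.style.haveILetI false

open scoped Pointwise

namespace Fermat.Agent.S56x.Hens

open IsLocalRing

section Level

variable {L : Type*} [Field L] [Algebra ℚ L] [IsGalois ℚ L]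
variable (P : ValuationSubring L) (E : IntermediateField ℚ L) [FiniteDimensional ℚ E]
  [IsGalois ℚ E]

theorem mem_decomposition_of_mem_inertiaSubgroupIn {s : L ≃ₐ[ℚ] L}
    (hs : s ∈ P.inertiaSubgroupIn ℚ) : s ∈ P.decompositionSubgroup ℚ :=
  ((mem_inertiaSubgroupIn_iff P s).mp hs).1

theorem mk_mem_inertiaSubgroup {s : L ≃ₐ[ℚ] L} (hs : s ∈ P.inertiaSubgroupIn ℚ) :
    (⟨s, mem_decomposition_of_mem_inertiaSubgroupIn P hs⟩ : P.decompositionSubgroup ℚ) ∈
      P.inertiaSubgroup ℚ := by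
  have h := hs
  rw [ValuationSubring.inertiaSubgroupIn, Subgroup.mem_map] at h
  obtain ⟨τ, hτ, hτs⟩ := h
  have : τ = ⟨s, mem_decomposition_of_mem_inertiaSubgroupIn P hs⟩ := Subtype.ext hτs
  rw [← this]
  exact hτ

/-- Restriction from the inertia group of `P` to the finite-level inertia group. -/
noncomputable def inertiaToLevel : ↥(P.inertiaSubgroupIn ℚ) →* ↥(inertiaLevel P E) where
  toFun s := ⟨restrictDecomp P E ⟨s.1, mem_decomposition_of_mem_inertiaSubgroupIn P s.2⟩,
    ⟨_, mk_mem_inertiaSubgroup P s.2, rfl⟩⟩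
  map_one' := by
    apply Subtype.ext
    apply Subtype.ext
    exact map_one (AlgEquiv.restrictNormalHom E)
  map_mul' s t := by
    apply Subtype.ext
    apply Subtype.ext
    exact map_mul (AlgEquiv.restrictNormalHom E) s.1 t.1

theorem coe_inertiaToLevel (s : ↥(P.inertiaSubgroupIn ℚ)) :
    (((inertiaToLevel P E s : ↥(inertiaLevel P E)) :
      (below P E).decompositionSubgroup ℚ) : E ≃ₐ[ℚ] E) = AlgEquiv.restrictNormalHom E s.1 := rfl

theorem inertiaToLevel_surjective : Function.Surjective (inertiaToLevel P E) := by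
  rintro ⟨_, τ, hτ, rfl⟩
  have hmem : (τ : L ≃ₐ[ℚ] L) ∈ P.inertiaSubgroupIn ℚ := by
    rw [ValuationSubring.inertiaSubgroupIn, Subgroup.mem_map]
    exact ⟨τ, hτ, rfl⟩
  refine ⟨⟨τ.1, hmem⟩, ?_⟩
  apply Subtype.ext
  apply Subtype.ext
  rfl

theorem inertiaToLevel_eq_one_iff (s : ↥(P.inertiaSubgroupIn ℚ)) :
    inertiaToLevel P E s = 1 ↔ (s : L ≃ₐ[ℚ] L) ∈ E.fixingSubgroup := by
  rw [← restrictNormalHom_ker_eq, MonoidHom.mem_ker]
  constructor
  · intro h
    have := congrArg (fun x : ↥(inertiaLevel P E) =>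
      ((x : (below P E).decompositionSubgroup ℚ) : E ≃ₐ[ℚ] E)) h
    exact this
  · intro h
    apply Subtype.ext
    apply Subtype.ext
    exact h

/-- The descent of a homomorphism on the inertia group, trivial on the elements fixing `E`,
to the finite-level inertia group. -/
noncomputable def descendInertiaHom {H : Type*} [Group H] (g : ↥(P.inertiaSubgroupIn ℚ) →* H)
    (hE : ∀ s : ↥(P.inertiaSubgroupIn ℚ), (s : L ≃ₐ[ℚ] L) ∈ E.fixingSubgroup → g s = 1) :
    ↥(inertiaLevel P E) →* H :=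
  (inertiaToLevel P E).liftOfSurjective (inertiaToLevel_surjective P E) ⟨g, fun s hs => by
    rw [MonoidHom.mem_ker] at hs ⊢
    exact hE s ((inertiaToLevel_eq_one_iff P E s).mp hs)⟩

theorem descendInertiaHom_apply {H : Type*} [Group H] (g : ↥(P.inertiaSubgroupIn ℚ) →* H)
    (hE : ∀ s : ↥(P.inertiaSubgroupIn ℚ), (s : L ≃ₐ[ℚ] L) ∈ E.fixingSubgroup → g s = 1)
    (s : ↥(P.inertiaSubgroupIn ℚ)) :
    descendInertiaHom P E g hE (inertiaToLevel P E s) = g s :=
  MonoidHom.liftOfRightInverse_comp_apply _ _ _ _ s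

theorem descendInertiaHom_range {H : Type*} [Group H] (g : ↥(P.inertiaSubgroupIn ℚ) →* H)
    (hE : ∀ s : ↥(P.inertiaSubgroupIn ℚ), (s : L ≃ₐ[ℚ] L) ∈ E.fixingSubgroup → g s = 1) :
    (descendInertiaHom P E g hE).range = g.range := by
  ext h
  constructor
  · rintro ⟨x, rfl⟩
    obtain ⟨s, rfl⟩ := inertiaToLevel_surjective P E x
    exact ⟨s, (descendInertiaHom_apply P E g hE s).symm⟩
  · rintro ⟨s, rfl⟩
    exact ⟨inertiaToLevel P E s, descendInertiaHom_apply P E g hE s⟩

theorem finite_range_of_inertiaHom {H : Type*} [Group H] (g : ↥(P.inertiaSubgroupIn ℚ) →* H)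
    (hE : ∀ s : ↥(P.inertiaSubgroupIn ℚ), (s : L ≃ₐ[ℚ] L) ∈ E.fixingSubgroup → g s = 1) :
    Finite g.range := by
  have : Finite (E ≃ₐ[ℚ] E) := finite_algEquiv_level E
  have : Finite (inertiaLevel P E) := inferInstance
  rw [← descendInertiaHom_range P E g hE]
  exact Finite.of_surjective (descendInertiaHom P E g hE).rangeRestrict
    (MonoidHom.rangeRestrict_surjective _)

/-- **Tame inertia is cyclic**, for homomorphisms defined on the inertia group only. -/
theorem isCyclic_range_of_inertiaHom {q : ℕ} [Fact q.Prime] (hP : P.LiesOverPrime q)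
    {H : Type*} [Group H] (g : ↥(P.inertiaSubgroupIn ℚ) →* H)
    (hE : ∀ s : ↥(P.inertiaSubgroupIn ℚ), (s : L ≃ₐ[ℚ] L) ∈ E.fixingSubgroup → g s = 1)
    (hg : (Nat.card g.range).Coprime q) : IsCyclic g.range := by
  have hq : q.Prime := Fact.out
  have : IsDiscreteValuationRing (below P E) := isDiscreteValuationRing_below P E hq hP
  have : Finite (E ≃ₐ[ℚ] E) := finite_algEquiv_level E
  have : Finite (inertiaLevel P E) := inferInstance
  obtain ⟨π, hπ⟩ := IsDiscreteValuationRing.exists_irreducible (below P E)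
  have hqm : ((q : ℕ) : below P E) ∈ maximalIdeal (below P E) := by
    rw [← ValuationSubring.coe_mem_nonunits_iff]
    have := below_liesOverPrime P E hP
    have h2 : ((((q : ℕ) : below P E) : below P E) : E) = ((q : ℕ) : E) := by simp
    rw [h2]
    exact this
  have hrange := descendInertiaHom_range P E g hE
  have hcop : (Nat.card (descendInertiaHom P E g hE).range).Coprime q := by
    rw [hrange]; exact hg
  have := TameCyclic.isCyclic_range_of_coprime hπ (inertiaLevel_hres P E) hqm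
    (descendInertiaHom P E g hE) hcop
  rw [hrange] at this
  exact this

end Level

/-! ### Additive characters of inertia are proportional -/

section Additive

variable {L : Type*} [Field L] [Algebra ℚ L] [IsGalois ℚ L]
variable (P : ValuationSubring L)

/-- **Hypothesis `(F)` of `Local/UnipotentTangent.exists_coboundary`.** Two additive characters
of the inertia group at `q` with values in a field of characteristic `p ≠ q`, both trivial on
the elements fixing a finite-dimensional subfield `E₀`, are proportional. -/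
theorem inertia_additive_proportional {q p : ℕ} [Fact q.Prime] [Fact p.Prime] (hpq : p ≠ q)
    (hP : P.LiesOverPrime q) {k : Type*} [Field k] [CharP k p]
    (E₀ : IntermediateField ℚ L) [FiniteDimensional ℚ E₀]
    (f₁ f₂ : (L ≃ₐ[ℚ] L) → k)
    (h₁ : ∀ s ∈ P.inertiaSubgroupIn ℚ, ∀ t ∈ P.inertiaSubgroupIn ℚ, f₁ (s * t) = f₁ s + f₁ t)
    (h₁U : ∀ u ∈ P.inertiaSubgroupIn ℚ, u ∈ E₀.fixingSubgroup → f₁ u = 0)
    (h₂ : ∀ s ∈ P.inertiaSubgroupIn ℚ, ∀ t ∈ P.inertiaSubgroupIn ℚ, f₂ (s * t) = f₂ s + f₂ t)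
    (h₂U : ∀ u ∈ P.inertiaSubgroupIn ℚ, u ∈ E₀.fixingSubgroup → f₂ u = 0)
    (hne : ∃ s ∈ P.inertiaSubgroupIn ℚ, f₁ s ≠ 0) :
    ∃ z : k, ∀ s ∈ P.inertiaSubgroupIn ℚ, f₂ s = z * f₁ s := by
  obtain ⟨E, _, _, hle⟩ := exists_finite_galois_ge E₀
  have hfix : E.fixingSubgroup ≤ E₀.fixingSubgroup := IntermediateField.fixingSubgroup_antitone hle
  have hone : ∀ f : (L ≃ₐ[ℚ] L) → k,
      (∀ s ∈ P.inertiaSubgroupIn ℚ, ∀ t ∈ P.inertiaSubgroupIn ℚ, f (s * t) = f s + f t) →
      f 1 = 0 := by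
    intro f hf
    have h := hf 1 (Subgroup.one_mem _) 1 (Subgroup.one_mem _)
    rw [mul_one] at h
    exact left_eq_add.mp h
  -- the homomorphism `s ↦ (f₁ s, f₂ s)`
  let g : ↥(P.inertiaSubgroupIn ℚ) →* Multiplicative (k × k) :=
    { toFun := fun s => Multiplicative.ofAdd (f₁ s.1, f₂ s.1)
      map_one' := by
        change Multiplicative.ofAdd (f₁ 1, f₂ 1) = 1
        rw [hone f₁ h₁, hone f₂ h₂]
        rfl
      map_mul' := fun s t => by
        change Multiplicative.ofAdd (f₁ (s.1 * t.1), f₂ (s.1 * t.1)) = _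
        rw [h₁ s.1 s.2 t.1 t.2, h₂ s.1 s.2 t.1 t.2]
        rfl }
  have hg_apply : ∀ s : ↥(P.inertiaSubgroupIn ℚ),
      Multiplicative.toAdd (g s) = (f₁ s.1, f₂ s.1) := fun s => rfl
  have hE : ∀ s : ↥(P.inertiaSubgroupIn ℚ), (s : L ≃ₐ[ℚ] L) ∈ E.fixingSubgroup → g s = 1 := by
    intro s hs
    change Multiplicative.ofAdd (f₁ s.1, f₂ s.1) = 1
    rw [h₁U s.1 s.2 (hfix hs), h₂U s.1 s.2 (hfix hs)]
    rfl
  have hfin : Finite g.range := finite_range_of_inertiaHom P E g hE
  -- the image is a `p`-group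
  have hpg : IsPGroup p g.range := by
    rintro ⟨x, hx⟩
    refine ⟨1, Subtype.ext ?_⟩
    change x ^ p ^ 1 = 1
    rw [pow_one]
    apply Multiplicative.toAdd.injective
    rw [toAdd_pow, toAdd_one]
    ext
    · simp
    · simp
  obtain ⟨n, hn⟩ := IsPGroup.iff_card.mp hpg
  have hcop : (Nat.card g.range).Coprime q := by
    rw [hn]
    exact Nat.Coprime.pow_left n
      ((Nat.coprime_primes (Fact.out : p.Prime) (Fact.out : q.Prime)).mpr hpq)
  have hcyc := isCyclic_range_of_inertiaHom P E hP g hE hcop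
  obtain ⟨⟨x₀, s₀, rfl⟩, hgen⟩ := hcyc.exists_generator
  -- every value is an integer multiple of the value at `s₀`
  have hmult : ∀ s : ↥(P.inertiaSubgroupIn ℚ), ∃ m : ℤ,
      f₁ s.1 = (m : k) * f₁ s₀.1 ∧ f₂ s.1 = (m : k) * f₂ s₀.1 := by
    intro s
    obtain ⟨m, hm⟩ := Subgroup.mem_zpowers_iff.mp (hgen ⟨g s, s, rfl⟩)
    have h1 : g s₀ ^ m = g s := congrArg Subtype.val hm
    have h2 := congrArg Multiplicative.toAdd h1
    rw [toAdd_zpow, hg_apply, hg_apply, Prod.smul_mk, Prod.mk.injEq] at h2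
    refine ⟨m, ?_, ?_⟩
    · rw [← h2.1, zsmul_eq_mul]
    · rw [← h2.2, zsmul_eq_mul]
  have hs₀ : f₁ s₀.1 ≠ 0 := by
    obtain ⟨s, hs, hfs⟩ := hne
    obtain ⟨m, hm, -⟩ := hmult ⟨s, hs⟩
    intro h0
    apply hfs
    rw [hm, h0, mul_zero]
  refine ⟨f₂ s₀.1 / f₁ s₀.1, fun s hs => ?_⟩
  obtain ⟨m, hm1, hm2⟩ := hmult ⟨s, hs⟩
  rw [hm2, hm1]
  field_simp

end Additive

end Fermat.Agent.S56x.Hens
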