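import Mathlib
import Fermat.Agent.S56x.Hens.TameAdditive
import Fermat.Agent.S56x.Local.UnipotentTangent

/-!
# P-S56 (helper15): unipotent tangent cocycles are coboundaries on inertia — unconditional

`Local/UnipotentTangent.exists_coboundary` (helper53) with its arithmetic hypothesis `(F)`
discharged by `Hens/TameAdditive.inertia_additive_proportional`, for the inertia group
`P.inertiaSubgroupIn ℚ` of a place `P` of `AlgebraicClosure ℚ` over a prime `q ≠ p`.
-/

set_option autoImplicit false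

namespace Fermat.Agent.S56x.Hens

open Fermat.Agent.S56x.Local.UnipotentTangent

local notation "Qb" => AlgebraicClosure ℚ

/-- A tangent cocycle `c` (values in `M₂(k)`, `char k = p`) along a residual representation
`rbar` that is unipotent and ramified on the inertia group of a place `P` over `q ≠ p`, with
`tr c = 0` and `tr (c · rbar) = 0` on inertia, and with `rbar = 1`, `c = 0` on the inertia
elements fixing a finite-dimensional subfield `E₀`, is a coboundary on inertia. -/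
theorem exists_coboundary_on_inertia {k : Type*} [Field k] {p q : ℕ} [Fact p.Prime]
    [Fact q.Prime] [CharP k p] (hpq : p ≠ q) (h2 : (2 : k) ≠ 0)
    (P : ValuationSubring Qb) (hP : P.LiesOverPrime q)
    (rbar : (Qb ≃ₐ[ℚ] Qb) →* Matrix (Fin 2) (Fin 2) k)
    (c : (Qb ≃ₐ[ℚ] Qb) → Matrix (Fin 2) (Fin 2) k)
    (hunip : ∀ s ∈ P.inertiaSubgroupIn ℚ, (rbar s).trace = 2 ∧ (rbar s).det = 1)
    (hram : ∃ s0 ∈ P.inertiaSubgroupIn ℚ, rbar s0 ≠ 1)
    (hcoc : ∀ s ∈ P.inertiaSubgroupIn ℚ, ∀ t ∈ P.inertiaSubgroupIn ℚ,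
      c (s * t) = c s + rbar s * c t * rbar s⁻¹)
    (htr : ∀ s ∈ P.inertiaSubgroupIn ℚ, (c s).trace = 0)
    (htr' : ∀ s ∈ P.inertiaSubgroupIn ℚ, (c s * rbar s).trace = 0)
    (E₀ : IntermediateField ℚ Qb) [FiniteDimensional ℚ E₀]
    (hU : ∀ u ∈ P.inertiaSubgroupIn ℚ, u ∈ E₀.fixingSubgroup → rbar u = 1 ∧ c u = 0) :
    ∃ X : Matrix (Fin 2) (Fin 2) k, X.trace = 0 ∧
      ∀ s ∈ P.inertiaSubgroupIn ℚ, c s = X - rbar s * X * rbar s⁻¹ := by
  have := Fermat.Agent.Lib.isGalois_algebraicClosure_rat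
  exact exists_coboundary (P.inertiaSubgroupIn ℚ) rbar c hunip hram hcoc htr htr' h2
    E₀.fixingSubgroup hU
    (fun f₁ f₂ h₁ h₁U h₂ h₂U hne =>
      inertia_additive_proportional P hpq hP E₀ f₁ f₂ h₁ h₁U h₂ h₂U hne)

end Fermat.Agent.S56x.Hens
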